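-- CELL-B / GB-PATCH-SUPP (helper9): the finite-level two-module patching datum in matrix form,
-- push-forward along ring homomorphisms, validity, finiteness.  Mathlib only.
import Mathlib

set_option autoImplicit false
set_option linter.unusedSectionVars false

namespace Fermat.Agent.GB.PatchSupp

open Matrix

/-- **Two-module patching datum in matrix form** over coefficient rings `A` (think `S ⧸ c n`)
and `A'` (think `(S ⧸ λ) ⧸ c̄ n`): two actions of `R` on `A ^ ι` by `A`-linear maps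
(`ρ₁`, `ρ₂`), an invertible matrix `U` over `A'` (inverse `V`) intertwining them after
`A → A'`, and `h` candidate generators `v₁`, `v₂` (rows) of `A ^ ι` over `R`. -/
@[ext]
structure Datum (R : Type*) [CommRing R] (A A' : Type*) [CommRing A] [CommRing A']
    (ι : Type*) [Fintype ι] [DecidableEq ι] (h : ℕ) where
  ρ₁ : R →+* Matrix ι ι A
  ρ₂ : R →+* Matrix ι ι A
  U : Matrix ι ι A'
  V : Matrix ι ι A'
  v₁ : Matrix (Fin h) ι A
  v₂ : Matrix (Fin h) ι A

variable {R : Type*} [CommRing R] {A A' B B' C C' : Type*} [CommRing A] [CommRing A']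
  [CommRing B] [CommRing B'] [CommRing C] [CommRing C']
  {ι : Type*} [Fintype ι] [DecidableEq ι] {h : ℕ}

namespace Datum

/-- Push-forward of a datum along ring homomorphisms of the coefficient rings. -/
def map (g : A →+* B) (g' : A' →+* B') (D : Datum R A A' ι h) : Datum R B B' ι h where
  ρ₁ := g.mapMatrix.comp D.ρ₁
  ρ₂ := g.mapMatrix.comp D.ρ₂
  U := D.U.map g'
  V := D.V.map g'
  v₁ := D.v₁.map g
  v₂ := D.v₂.map g

@[simp] theorem map_ρ₁ (g : A →+* B) (g' : A' →+* B') (D : Datum R A A' ι h) (r : R) :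
    (D.map g g').ρ₁ r = (D.ρ₁ r).map g := rfl

@[simp] theorem map_ρ₂ (g : A →+* B) (g' : A' →+* B') (D : Datum R A A' ι h) (r : R) :
    (D.map g g').ρ₂ r = (D.ρ₂ r).map g := rfl

@[simp] theorem map_U (g : A →+* B) (g' : A' →+* B') (D : Datum R A A' ι h) :
    (D.map g g').U = D.U.map g' := rfl

@[simp] theorem map_V (g : A →+* B) (g' : A' →+* B') (D : Datum R A A' ι h) :
    (D.map g g').V = D.V.map g' := rfl

@[simp] theorem map_v₁ (g : A →+* B) (g' : A' →+* B') (D : Datum R A A' ι h) :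
    (D.map g g').v₁ = D.v₁.map g := rfl

@[simp] theorem map_v₂ (g : A →+* B) (g' : A' →+* B') (D : Datum R A A' ι h) :
    (D.map g g').v₂ = D.v₂.map g := rfl

theorem map_map (g : A →+* B) (g' : A' →+* B') (f : B →+* C) (f' : B' →+* C')
    (D : Datum R A A' ι h) : (D.map g g').map f f' = D.map (f.comp g) (f'.comp g') := by
  ext1
  · ext r i j; rfl
  · ext r i j; rfl
  · ext i j; rfl
  · ext i j; rfl
  · ext i j; rfl
  · ext i j; rfl

theorem map_congr {g₁ g₂ : A →+* B} {g₁' g₂' : A' →+* B'} (hg : g₁ = g₂) (hg' : g₁' = g₂')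
    (D : Datum R A A' ι h) : D.map g₁ g₁' = D.map g₂ g₂' := by
  subst hg; subst hg'; rfl

theorem map_id (D : Datum R A A' ι h) : D.map (RingHom.id A) (RingHom.id A') = D := by
  ext1
  · ext r i j; rfl
  · ext r i j; rfl
  · ext i j; rfl
  · ext i j; rfl
  · ext i j; rfl
  · ext i j; rfl

/-- Validity of a datum with respect to `ψ : A → A'` and killing ideals `J₁`, `J₂` of `R`. -/
structure IsValid (ψ : A →+* A') (J₁ J₂ : Ideal R) (D : Datum R A A' ι h) : Prop where
  UV : D.U * D.V = 1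
  VU : D.V * D.U = 1
  conj : ∀ r, D.U * (D.ρ₁ r).map ψ = (D.ρ₂ r).map ψ * D.U
  kill₁ : ∀ r ∈ J₁, D.ρ₁ r = 0
  kill₂ : ∀ r ∈ J₂, D.ρ₂ r = 0
  gen₁ : ∀ w : ι → A, ∃ r : Fin h → R, w = ∑ i, (D.ρ₁ (r i)) *ᵥ (D.v₁ i)
  gen₂ : ∀ w : ι → A, ∃ r : Fin h → R, w = ∑ i, (D.ρ₂ (r i)) *ᵥ (D.v₂ i)

theorem map_mulVec_eq (g : A →+* B) (M : Matrix ι ι A) (v : ι → A) :
    (M.map g) *ᵥ (g ∘ v) = g ∘ (M *ᵥ v) := by
  ext i
  exact (RingHom.map_mulVec g M v i).symm

/-- Validity is preserved by push-forward along a commuting square with `g` surjective. -/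
theorem IsValid.map {ψ : A →+* A'} {J₁ J₂ : Ideal R} {D : Datum R A A' ι h}
    (hD : D.IsValid ψ J₁ J₂) (g : A →+* B) (g' : A' →+* B') (ψB : B →+* B')
    (hsq : ψB.comp g = g'.comp ψ) (hg : Function.Surjective g) :
    (D.map g g').IsValid ψB J₁ J₂ where
  UV := by
    simp only [map_U, map_V]
    rw [← Matrix.map_mul, hD.UV]
    exact Matrix.map_one _ (map_zero _) (map_one _)
  VU := by
    simp only [map_U, map_V]
    rw [← Matrix.map_mul, hD.VU]
    exact Matrix.map_one _ (map_zero _) (map_one _)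
  conj := by
    intro r
    have h1 : ∀ M : Matrix ι ι A, (M.map g).map ψB = (M.map ψ).map g' := by
      intro M
      rw [Matrix.map_map, Matrix.map_map]
      have : (ψB ∘ g : A → B') = (g' ∘ ψ) := by
        funext a
        exact RingHom.congr_fun hsq a
      rw [this]
    simp only [map_U, map_ρ₁, map_ρ₂]
    rw [h1, h1, ← Matrix.map_mul, ← Matrix.map_mul, hD.conj r]
  kill₁ := by
    intro r hr
    simp only [map_ρ₁, hD.kill₁ r hr]
    exact Matrix.map_zero _ (map_zero _)
  kill₂ := by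
    intro r hr
    simp only [map_ρ₂, hD.kill₂ r hr]
    exact Matrix.map_zero _ (map_zero _)
  gen₁ := by
    intro w
    obtain ⟨w', rfl⟩ : ∃ w' : ι → A, w = g ∘ w' := by
      choose f hf using hg
      exact ⟨fun i => f (w i), funext fun i => (hf (w i)).symm⟩
    obtain ⟨r, hr⟩ := hD.gen₁ w'
    refine ⟨r, ?_⟩
    rw [hr]
    ext j
    simp only [Function.comp_apply, Finset.sum_apply, map_sum, map_ρ₁, map_v₁]
    refine Finset.sum_congr rfl fun i _ => ?_
    exact RingHom.map_mulVec g _ _ j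
  gen₂ := by
    intro w
    obtain ⟨w', rfl⟩ : ∃ w' : ι → A, w = g ∘ w' := by
      choose f hf using hg
      exact ⟨fun i => f (w i), funext fun i => (hf (w i)).symm⟩
    obtain ⟨r, hr⟩ := hD.gen₂ w'
    refine ⟨r, ?_⟩
    rw [hr]
    ext j
    simp only [Function.comp_apply, Finset.sum_apply, map_sum, map_ρ₂, map_v₂]
    refine Finset.sum_congr rfl fun i _ => ?_
    exact RingHom.map_mulVec g _ _ j

/-- **Finiteness**: over finite coefficient rings there are only finitely many data whose two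
actions factor through a fixed finite quotient of `R`. -/
theorem finite_setOf_kill [Finite A] [Finite A'] (I : Ideal R) [Finite (R ⧸ I)] :
    {D : Datum R A A' ι h | ∀ r ∈ I, D.ρ₁ r = 0 ∧ D.ρ₂ r = 0}.Finite := by
  classical
  let Φ : Datum R A A' ι h →
      ((R ⧸ I) → Matrix ι ι A) × ((R ⧸ I) → Matrix ι ι A) × Matrix ι ι A' × Matrix ι ι A' ×
        Matrix (Fin h) ι A × Matrix (Fin h) ι A :=
    fun D => (fun q => D.ρ₁ (Quotient.out q), fun q => D.ρ₂ (Quotient.out q), D.U, D.V, D.v₁, D.v₂)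
  refine Set.Finite.of_injOn (f := Φ) (t := Set.univ) (fun _ _ => Set.mem_univ _) ?_
    Set.finite_univ
  intro D hD D' hD' hΦ
  simp only [Set.mem_ofPred_eq] at hD hD'
  simp only [Φ, Prod.mk.injEq] at hΦ
  obtain ⟨h1, h2, h3, h4, h5, h6⟩ := hΦ
  have hout : ∀ r : R, r - Quotient.out (Ideal.Quotient.mk I r) ∈ I := by
    intro r
    rw [← Ideal.Quotient.eq]
    exact (Quotient.out_eq _).symm
  ext1
  · ext1 r
    have e1 : D.ρ₁ r = D.ρ₁ (Quotient.out (Ideal.Quotient.mk I r)) := by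
      rw [← sub_eq_zero, ← map_sub]
      exact (hD _ (hout r)).1
    have e2 : D'.ρ₁ r = D'.ρ₁ (Quotient.out (Ideal.Quotient.mk I r)) := by
      rw [← sub_eq_zero, ← map_sub]
      exact (hD' _ (hout r)).1
    rw [e1, e2]
    exact congrFun h1 _
  · ext1 r
    have e1 : D.ρ₂ r = D.ρ₂ (Quotient.out (Ideal.Quotient.mk I r)) := by
      rw [← sub_eq_zero, ← map_sub]
      exact (hD _ (hout r)).2
    have e2 : D'.ρ₂ r = D'.ρ₂ (Quotient.out (Ideal.Quotient.mk I r)) := by
      rw [← sub_eq_zero, ← map_sub]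
      exact (hD' _ (hout r)).2
    rw [e1, e2]
    exact congrFun h2 _
  · exact h3
  · exact h4
  · exact h5
  · exact h6

end Datum

end Fermat.Agent.GB.PatchSupp
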