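-- CELL-B / GB-PATCH-SUPP (helper9): complete separated filtrations and limits of compatible
-- families of elements, matrices and ring homomorphisms into matrix rings.  Mathlib only.
import Mathlib

set_option autoImplicit false
set_option linter.unusedSectionVars false

namespace Fermat.Agent.GB.PatchSupp

open Matrix

/-- A decreasing sequence of ideals `c 0 ⊇ c 1 ⊇ ⋯` of a commutative ring `S` for which `S` is
complete and separated (e.g. `c n = 𝔪 ^ n` in a complete noetherian local ring, or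
`c n = (λ ^ n, y_i ^ n)` in `𝒪⟦y⟧`). -/
structure Filt (S : Type*) [CommRing S] where
  /-- the ideals -/
  c : ℕ → Ideal S
  anti : Antitone c
  complete : ∀ f : ℕ → S, (∀ n, f (n + 1) - f n ∈ c n) → ∃ s : S, ∀ n, s - f n ∈ c n
  separated : ∀ s : S, (∀ n, s ∈ c n) → s = 0

namespace Filt

variable {S : Type*} [CommRing S] (F : Filt S)

theorem sub_mem_of_le {f : ℕ → S} (hf : ∀ n, f (n + 1) - f n ∈ F.c n) {n k : ℕ} (hnk : n ≤ k) :
    f k - f n ∈ F.c n := by
  induction hnk with
  | refl => simp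
  | step hk ih =>
    rename_i k
    have h1 : f (k + 1) - f k ∈ F.c n := F.anti hk (hf k)
    have : f (k + 1) - f n = (f (k + 1) - f k) + (f k - f n) := by ring
    rw [this]
    exact (F.c n).add_mem h1 ih

theorem eq_of_forall_sub_mem {s s' : S} (h : ∀ n, s - s' ∈ F.c n) : s = s' :=
  sub_eq_zero.mp (F.separated _ h)

/-- The transition map `S ⧸ c (n+1) → S ⧸ c n`. -/
noncomputable def trans (n : ℕ) : S ⧸ F.c (n + 1) →+* S ⧸ F.c n :=
  Ideal.Quotient.factor (F.anti (Nat.le_succ n))

@[simp] theorem trans_mk (n : ℕ) (s : S) :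
    F.trans n (Ideal.Quotient.mk (F.c (n + 1)) s) = Ideal.Quotient.mk (F.c n) s := by
  simp [trans]

/-- The transition map `S ⧸ c k → S ⧸ c n` for `n ≤ k`. -/
noncomputable def transLE {n k : ℕ} (h : n ≤ k) : S ⧸ F.c k →+* S ⧸ F.c n :=
  Ideal.Quotient.factor (F.anti h)

@[simp] theorem transLE_mk {n k : ℕ} (h : n ≤ k) (s : S) :
    F.transLE h (Ideal.Quotient.mk (F.c k) s) = Ideal.Quotient.mk (F.c n) s := by
  simp [transLE]

theorem transLE_succ (n : ℕ) : F.transLE (Nat.le_succ n) = F.trans n := rfl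

theorem transLE_comp {n k l : ℕ} (h : n ≤ k) (h' : k ≤ l) (x : S ⧸ F.c l) :
    F.transLE h (F.transLE h' x) = F.transLE (h.trans h') x := by
  obtain ⟨s, rfl⟩ := Ideal.Quotient.mk_surjective x
  simp

/-- **Limit of a compatible family of residue classes.** -/
theorem exists_unique_limit (z : ∀ n, S ⧸ F.c n) (hz : ∀ n, F.trans n (z (n + 1)) = z n) :
    ∃! s : S, ∀ n, Ideal.Quotient.mk (F.c n) s = z n := by
  classical
  choose f hf using fun n => Ideal.Quotient.mk_surjective (z n)
  have hcomp : ∀ n, f (n + 1) - f n ∈ F.c n := by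
    intro n
    rw [← Ideal.Quotient.eq, hf n, ← hz n, ← hf (n + 1), trans_mk]
  obtain ⟨s, hs⟩ := F.complete f hcomp
  refine ⟨s, fun n => ?_, fun s' hs' => ?_⟩
  · rw [← hf n]
    exact Ideal.Quotient.eq.mpr (hs n)
  · refine F.eq_of_forall_sub_mem fun n => ?_
    rw [← Ideal.Quotient.eq, hs' n, ← hf n]
    exact (Ideal.Quotient.eq.mpr (hs n)).symm

/-- The limit of a compatible family of residue classes. -/
noncomputable def lim (z : ∀ n, S ⧸ F.c n) (hz : ∀ n, F.trans n (z (n + 1)) = z n) : S :=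
  (F.exists_unique_limit z hz).choose

theorem mk_lim (z : ∀ n, S ⧸ F.c n) (hz : ∀ n, F.trans n (z (n + 1)) = z n) (n : ℕ) :
    Ideal.Quotient.mk (F.c n) (F.lim z hz) = z n :=
  (F.exists_unique_limit z hz).choose_spec.1 n

theorem eq_of_forall_mk_eq {s s' : S}
    (h : ∀ n, Ideal.Quotient.mk (F.c n) s = Ideal.Quotient.mk (F.c n) s') : s = s' :=
  F.eq_of_forall_sub_mem fun n => Ideal.Quotient.eq.mp (h n)

section Matrix

variable {ι κ : Type*}

/-- Reduction of matrices modulo `c n`. -/
noncomputable def redM (n : ℕ) (A : Matrix ι κ S) : Matrix ι κ (S ⧸ F.c n) :=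
  A.map (Ideal.Quotient.mk (F.c n))

/-- Transition of matrices from level `n + 1` to level `n`. -/
noncomputable def transM (n : ℕ) (A : Matrix ι κ (S ⧸ F.c (n + 1))) : Matrix ι κ (S ⧸ F.c n) :=
  A.map (F.trans n)

@[simp] theorem redM_apply (n : ℕ) (A : Matrix ι κ S) (i : ι) (j : κ) :
    F.redM n A i j = Ideal.Quotient.mk (F.c n) (A i j) := rfl

@[simp] theorem transM_apply (n : ℕ) (A : Matrix ι κ (S ⧸ F.c (n + 1))) (i : ι) (j : κ) :
    F.transM n A i j = F.trans n (A i j) := rfl

theorem transM_redM (n : ℕ) (A : Matrix ι κ S) : F.transM n (F.redM (n + 1) A) = F.redM n A := by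
  ext i j
  simp

theorem eq_of_forall_redM_eq {A B : Matrix ι κ S} (h : ∀ n, F.redM n A = F.redM n B) : A = B := by
  ext i j
  exact F.eq_of_forall_mk_eq fun n => by simpa using congrFun (congrFun (h n) i) j

/-- **Limit of a compatible family of matrices.** -/
theorem exists_unique_limitM (Z : ∀ n, Matrix ι κ (S ⧸ F.c n))
    (hZ : ∀ n, F.transM n (Z (n + 1)) = Z n) :
    ∃! A : Matrix ι κ S, ∀ n, F.redM n A = Z n := by
  have hz : ∀ i j n, F.trans n (Z (n + 1) i j) = Z n i j := fun i j n => by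
    simpa using congrFun (congrFun (hZ n) i) j
  refine ⟨Matrix.of fun i j => F.lim (fun n => Z n i j) (hz i j), fun n => ?_, fun B hB => ?_⟩
  · ext i j
    simp [F.mk_lim]
  · refine F.eq_of_forall_redM_eq fun n => ?_
    rw [hB n]
    ext i j
    simp [F.mk_lim]

/-- The limit of a compatible family of matrices. -/
noncomputable def limM (Z : ∀ n, Matrix ι κ (S ⧸ F.c n))
    (hZ : ∀ n, F.transM n (Z (n + 1)) = Z n) : Matrix ι κ S :=
  (F.exists_unique_limitM Z hZ).choose

theorem redM_limM (Z : ∀ n, Matrix ι κ (S ⧸ F.c n))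
    (hZ : ∀ n, F.transM n (Z (n + 1)) = Z n) (n : ℕ) : F.redM n (F.limM Z hZ) = Z n :=
  (F.exists_unique_limitM Z hZ).choose_spec.1 n

end Matrix

section Square

variable {ι : Type*} [Fintype ι] [DecidableEq ι]

theorem redM_mul (n : ℕ) (A B : Matrix ι ι S) : F.redM n (A * B) = F.redM n A * F.redM n B := by
  simp only [redM]
  exact Matrix.map_mul

theorem redM_one (n : ℕ) : F.redM n (1 : Matrix ι ι S) = 1 := by
  simp only [redM]
  exact Matrix.map_one _ (map_zero _) (map_one _)

theorem redM_add (n : ℕ) (A B : Matrix ι ι S) : F.redM n (A + B) = F.redM n A + F.redM n B := by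
  simp only [redM]
  exact Matrix.map_add _ (map_add _) _ _

theorem redM_zero (n : ℕ) : F.redM n (0 : Matrix ι ι S) = 0 := by
  simp only [redM]
  exact Matrix.map_zero _ (map_zero _)

variable {R : Type*} [Semiring R]

/-- **Limit of a compatible family of ring homomorphisms into matrix rings**:
`Hom(R, M_d(S)) = lim Hom(R, M_d(S ⧸ c n))`. -/
theorem exists_unique_limitHom (ρ : ∀ n, R →+* Matrix ι ι (S ⧸ F.c n))
    (hρ : ∀ n r, F.transM n (ρ (n + 1) r) = ρ n r) :
    ∃! ρ' : R →+* Matrix ι ι S, ∀ n r, F.redM n (ρ' r) = ρ n r := by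
  have key : ∀ r n, F.redM n (F.limM (fun n => ρ n r) (fun n => hρ n r)) = ρ n r :=
    fun r n => F.redM_limM _ _ n
  refine ⟨{ toFun := fun r => F.limM (fun n => ρ n r) (fun n => hρ n r)
            map_one' := ?_, map_mul' := ?_, map_zero' := ?_, map_add' := ?_ }, ?_, ?_⟩
  · refine F.eq_of_forall_redM_eq fun n => ?_
    rw [key, F.redM_one, map_one]
  · intro a b
    refine F.eq_of_forall_redM_eq fun n => ?_
    rw [key, F.redM_mul, key, key, map_mul]
  · refine F.eq_of_forall_redM_eq fun n => ?_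
    rw [key, F.redM_zero, map_zero]
  · intro a b
    refine F.eq_of_forall_redM_eq fun n => ?_
    rw [key, F.redM_add, key, key, map_add]
  · intro n r
    exact key r n
  · intro ρ'' h
    ext1 r
    refine F.eq_of_forall_redM_eq fun n => ?_
    rw [h n r]
    exact (key r n).symm

/-- The limit of a compatible family of ring homomorphisms into matrix rings. -/
noncomputable def limHom (ρ : ∀ n, R →+* Matrix ι ι (S ⧸ F.c n))
    (hρ : ∀ n r, F.transM n (ρ (n + 1) r) = ρ n r) : R →+* Matrix ι ι S :=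
  (F.exists_unique_limitHom ρ hρ).choose

theorem redM_limHom (ρ : ∀ n, R →+* Matrix ι ι (S ⧸ F.c n))
    (hρ : ∀ n r, F.transM n (ρ (n + 1) r) = ρ n r) (n : ℕ) (r : R) :
    F.redM n (F.limHom ρ hρ r) = ρ n r :=
  (F.exists_unique_limitHom ρ hρ).choose_spec.1 n r

end Square

end Filt

end Fermat.Agent.GB.PatchSupp
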