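-- CELL-B / GB-PATCH-SUPP (helper9): the pigeonhole ("König") thread lemma behind Taylor–Wiles
-- patching.  Mathlib only.
import Mathlib

set_option autoImplicit false

namespace Fermat.Agent.GB.PatchSupp

/-- Pigeonhole on an infinite set of indices: a map with finite range is constant on an infinite
subset. -/
theorem exists_infinite_subset_const {β : Type*} (f : ℕ → β) (hf : (Set.range f).Finite)
    {I : Set ℕ} (hI : I.Infinite) :
    ∃ I' : Set ℕ, I' ⊆ I ∧ I'.Infinite ∧ ∀ a ∈ I', ∀ b ∈ I', f a = f b := by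
  classical
  by_contra hcon
  push Not at hcon
  have hfib : ∀ y ∈ Set.range f, (I ∩ f ⁻¹' {y}).Finite := by
    intro y _
    by_contra hinf
    obtain ⟨a, ha, b, hb, hab⟩ := hcon (I ∩ f ⁻¹' {y}) Set.inter_subset_left hinf
    exact hab (ha.2.trans hb.2.symm)
  have hcover : I ⊆ ⋃ y ∈ Set.range f, (I ∩ f ⁻¹' {y}) := by
    intro a ha
    simp only [Set.mem_iUnion]
    exact ⟨f a, ⟨a, rfl⟩, ha, rfl⟩
  exact hI ((hf.biUnion hfib).subset hcover)

/-- **König thread lemma.**  Let `t n m` be the "level `n` truncation of the `m`-th datum", and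
assume that for every level `n` only finitely many truncations occur.  Then there is a strictly
increasing sequence of indices `m 0 < m 1 < ⋯` with `n ≤ m n` such that all later data agree with
the `n`-th chosen one at level `n`. -/
theorem exists_thread {T : ℕ → Type*} (t : ∀ n, ℕ → T n)
    (hfin : ∀ n, (Set.range (t n)).Finite) :
    ∃ m : ℕ → ℕ, StrictMono m ∧ (∀ n, n ≤ m n) ∧ ∀ n k, n ≤ k → t n (m k) = t n (m n) := by
  classical
  -- nested infinite index sets
  let P : ℕ → Set ℕ → Prop := fun n I => I.Infinite ∧ ∀ a ∈ I, ∀ b ∈ I, t n a = t n b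
  have h0 : ∃ I : Set ℕ, P 0 I := by
    obtain ⟨I, -, h1, h2⟩ := exists_infinite_subset_const (t 0) (hfin 0) Set.infinite_univ
    exact ⟨I, h1, h2⟩
  have hstep : ∀ n (I : Set ℕ), I.Infinite → ∃ I' : Set ℕ, I' ⊆ I ∧ P (n + 1) I' := by
    intro n I hI
    obtain ⟨I', h0, h1, h2⟩ := exists_infinite_subset_const (t (n + 1)) (hfin (n + 1)) hI
    exact ⟨I', h0, h1, h2⟩
  -- the recursive choice of the sets
  let Q : ℕ → Type := fun n => {I : Set ℕ // P n I}
  let seq : ∀ n, Q n := fun n => Nat.rec (motive := Q)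
    ⟨h0.choose, h0.choose_spec⟩
    (fun n I => ⟨(hstep n I.1 I.2.1).choose, (hstep n I.1 I.2.1).choose_spec.2⟩) n
  have hsub : ∀ n, (seq (n + 1)).1 ⊆ (seq n).1 := fun n =>
    (hstep n (seq n).1 (seq n).2.1).choose_spec.1
  have hsub' : ∀ n k, n ≤ k → (seq k).1 ⊆ (seq n).1 := by
    intro n k hnk
    induction hnk with
    | refl => exact le_rfl
    | step _ ih => exact (hsub _).trans ih
  -- the choice of the indices
  have hex : ∀ n (b : ℕ), ∃ a ∈ (seq n).1, b < a := fun n b => (seq n).2.1.exists_gt b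
  let m : ℕ → ℕ := fun n => Nat.rec (motive := fun _ => ℕ)
    (hex 0 0).choose (fun n prev => (hex (n + 1) (max prev (n + 1))).choose) n
  have hm0 : m 0 ∈ (seq 0).1 := (hex 0 0).choose_spec.1
  have hmS : ∀ n, m (n + 1) ∈ (seq (n + 1)).1 ∧ max (m n) (n + 1) < m (n + 1) := fun n =>
    (hex (n + 1) (max (m n) (n + 1))).choose_spec
  have hmem : ∀ n, m n ∈ (seq n).1 := by
    intro n
    cases n with
    | zero => exact hm0
    | succ n => exact (hmS n).1
  refine ⟨m, strictMono_nat_of_lt_succ fun n => lt_of_le_of_lt (le_max_left _ _) (hmS n).2,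
    ?_, ?_⟩
  · intro n
    cases n with
    | zero => exact Nat.zero_le _
    | succ n => exact (lt_of_le_of_lt (le_max_right _ _) (hmS n).2).le
  · intro n k hnk
    exact (seq n).2.2 _ (hsub' n k hnk (hmem k)) _ (hmem n)

end Fermat.Agent.GB.PatchSupp
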