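-- CELL-B / GB-PATCH-SUPP (helper9): bounded generation passes to the limit
-- (compactness of `R` replaces 'the `S`-action factors through `R`').  Mathlib only.
import Fermat.Agent.GB.PatchSupp.Thread
import Fermat.Agent.GB.PatchSupp.Limit

set_option autoImplicit false
set_option linter.unusedSectionVars false

namespace Fermat.Agent.GB.PatchSupp

open Matrix

variable {R S : Type*} [CommRing R] [CommRing S] {ι : Type*} [Fintype ι] [DecidableEq ι] {h : ℕ}

/-- Entrywise criterion: `redM n M = 0` iff all entries lie in `c n`. -/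
theorem Filt.redM_eq_zero_iff (F : Filt S) {κ κ' : Type*} (n : ℕ) (M : Matrix κ κ' S) :
    F.redM n M = 0 ↔ ∀ i j, M i j ∈ F.c n := by
  constructor
  · intro hM i j
    have := congrFun (congrFun hM i) j
    simpa [Ideal.Quotient.eq_zero_iff_mem] using this
  · intro hM
    ext i j
    simpa [Ideal.Quotient.eq_zero_iff_mem] using hM i j

/-- **Generation passes to the limit.**  Let `R` be complete for a filtration `G` with finite
quotients, acting on `S ^ ι` through a ring homomorphism `ρ : R → M_ι(S)` which is continuous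
(`ρ` modulo `c n` kills some `G.c k`).  If `h` vectors `v i` generate `S ^ ι` over `R` modulo every
`c n`, they generate `S ^ ι` over `R`. -/
theorem gen_of_gen_mod (F : Filt S) (G : Filt R) [∀ j, Finite (R ⧸ G.c j)]
    (ρ : R →+* Matrix ι ι S) (v : Matrix (Fin h) ι S)
    (hcont : ∀ n, ∃ k, ∀ r ∈ G.c k, F.redM n (ρ r) = 0)
    (hgen : ∀ n (w : ι → S), ∃ r : Fin h → R, ∀ j, w j - (∑ i, ρ (r i) *ᵥ v i) j ∈ F.c n)
    (w : ι → S) : ∃ r : Fin h → R, w = ∑ i, ρ (r i) *ᵥ v i := by
  classical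
  choose r0 hr0 using fun n => hgen n w
  -- thread of the coefficient vectors
  obtain ⟨a, -, ha, hthr⟩ := exists_thread (T := fun j => Fin h → R ⧸ G.c j)
    (fun j a i => Ideal.Quotient.mk (G.c j) (r0 a i)) (fun j => Set.toFinite _)
  have hcauchy : ∀ i j, r0 (a (j + 1)) i - r0 (a j) i ∈ G.c j := by
    intro i j
    rw [← Ideal.Quotient.eq]
    exact congrFun (hthr j (j + 1) (Nat.le_succ j)) i
  choose r hr using fun i => G.complete (fun j => r0 (a j) i) (hcauchy i)
  refine ⟨r, ?_⟩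
  funext j'
  refine F.eq_of_forall_sub_mem fun n => ?_
  obtain ⟨k, hk⟩ := hcont n
  set j := max n k with hj
  have hnj : n ≤ j := le_max_left _ _
  have hkj : k ≤ j := le_max_right _ _
  -- the approximation at stage `a j`
  have h1 : w j' - (∑ i, ρ (r0 (a j) i) *ᵥ v i) j' ∈ F.c n :=
    F.anti (hnj.trans (ha j)) (hr0 (a j) j')
  -- `ρ (r i) ≡ ρ (r0 (a j) i)` modulo `c n`
  have h2 : ∀ i l l', (ρ (r i) - ρ (r0 (a j) i)) l l' ∈ F.c n := by
    intro i
    have hmem : r i - r0 (a j) i ∈ G.c k := G.anti hkj (hr i j)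
    have := hk _ hmem
    rw [map_sub] at this
    exact (F.redM_eq_zero_iff n _).mp this
  have h3 : (∑ i, ρ (r i) *ᵥ v i) j' - (∑ i, ρ (r0 (a j) i) *ᵥ v i) j' ∈ F.c n := by
    rw [Finset.sum_apply, Finset.sum_apply, ← Finset.sum_sub_distrib]
    refine Ideal.sum_mem _ fun i _ => ?_
    rw [← Pi.sub_apply, ← Matrix.sub_mulVec]
    simp only [Matrix.mulVec, dotProduct]
    refine Ideal.sum_mem _ fun l _ => ?_
    exact Ideal.mul_mem_right _ _ (h2 i j' l)
  have : w j' - (∑ i, ρ (r i) *ᵥ v i) j' =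
      (w j' - (∑ i, ρ (r0 (a j) i) *ᵥ v i) j') -
        ((∑ i, ρ (r i) *ᵥ v i) j' - (∑ i, ρ (r0 (a j) i) *ᵥ v i) j') := by ring
  rw [this]
  exact (F.c n).sub_mem h1 h3

end Fermat.Agent.GB.PatchSupp
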