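-- CELL-B / GB-PATCH-SUPP (helper9): the two-module pigeonhole patching theorem in matrix form
-- (helper66 board 4904 §3, with helper59's weakening 4975: bounded generation over `R`).
-- Mathlib only.
import Fermat.Agent.GB.PatchSupp.Datum
import Fermat.Agent.GB.PatchSupp.Gen

set_option autoImplicit false
set_option linter.unusedSectionVars false

namespace Fermat.Agent.GB.PatchSupp

open Matrix

variable {R S S' : Type*} [CommRing R] [CommRing S] [CommRing S']
  (F : Filt S) (F' : Filt S') (G : Filt R) (φ : S →+* S')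
  (hφ : ∀ n, F.c n ≤ (F'.c n).comap φ)
  {ι : Type*} [Fintype ι] [DecidableEq ι] {h : ℕ}

/-- The map `S ⧸ c n → S' ⧸ c' n` induced by `φ`. -/
noncomputable def phiLvl (n : ℕ) : S ⧸ F.c n →+* S' ⧸ F'.c n :=
  Ideal.quotientMap (F'.c n) φ (hφ n)

@[simp] theorem phiLvl_mk (n : ℕ) (s : S) :
    phiLvl F F' φ hφ n (Ideal.Quotient.mk (F.c n) s) = Ideal.Quotient.mk (F'.c n) (φ s) := by
  simp [phiLvl]

theorem phiLvl_comp_transLE {n k : ℕ} (hnk : n ≤ k) :
    (phiLvl F F' φ hφ n).comp (F.transLE hnk) = (F'.transLE hnk).comp (phiLvl F F' φ hφ k) := by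
  refine Ideal.Quotient.ringHom_ext ?_
  ext s
  simp

theorem Filt.transLE_surjective {n k : ℕ} (hnk : n ≤ k) : Function.Surjective (F.transLE hnk) := by
  intro x
  obtain ⟨s, rfl⟩ := Ideal.Quotient.mk_surjective x
  exact ⟨Ideal.Quotient.mk _ s, by simp⟩

theorem Filt.transLE_self (n : ℕ) (x : S ⧸ F.c n) : F.transLE (le_refl n) x = x := by
  obtain ⟨s, rfl⟩ := Ideal.Quotient.mk_surjective x
  simp

/-- The type of level-`n` data. -/
abbrev Lvl (R : Type*) [CommRing R] {S S' : Type*} [CommRing S] [CommRing S'] (F : Filt S)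
    (F' : Filt S') (ι : Type*) [Fintype ι] [DecidableEq ι] (h n : ℕ) : Type _ :=
  Datum R (S ⧸ F.c n) (S' ⧸ F'.c n) ι h

/-- Truncation of a level-`k` datum to level `n ≤ k`. -/
noncomputable def truncLE {n k : ℕ} (hnk : n ≤ k) (D : Lvl R F F' ι h k) : Lvl R F F' ι h n :=
  D.map (F.transLE hnk) (F'.transLE hnk)

theorem truncLE_truncLE {n k l : ℕ} (hnk : n ≤ k) (hkl : k ≤ l) (D : Lvl R F F' ι h l) :
    truncLE F F' hnk (truncLE F F' hkl D) = truncLE F F' (hnk.trans hkl) D := by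
  unfold truncLE
  rw [Datum.map_map]
  refine Datum.map_congr ?_ ?_ D
  · ext x; exact F.transLE_comp hnk hkl x
  · ext x; exact F'.transLE_comp hnk hkl x

theorem truncLE_self {n : ℕ} (D : Lvl R F F' ι h n) : truncLE F F' (le_refl n) D = D := by
  unfold truncLE
  have h1 : F.transLE (le_refl n) = RingHom.id _ := by ext x; exact F.transLE_self n x
  have h2 : F'.transLE (le_refl n) = RingHom.id _ := by ext x; exact F'.transLE_self n x
  rw [Datum.map_congr h1 h2, Datum.map_id]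

theorem isValid_truncLE {n k : ℕ} (hnk : n ≤ k) {J₁ J₂ : Ideal R} {D : Lvl R F F' ι h k}
    (hD : D.IsValid (phiLvl F F' φ hφ k) J₁ J₂) :
    (truncLE F F' hnk D).IsValid (phiLvl F F' φ hφ n) J₁ J₂ :=
  hD.map _ _ _ (phiLvl_comp_transLE F F' φ hφ hnk) (F.transLE_surjective hnk)

/-- Reduction of a vector modulo `c n`. -/
theorem Filt.mk_mulVec (n : ℕ) (M : Matrix ι ι S) (v : ι → S) (j : ι) :
    Ideal.Quotient.mk (F.c n) ((M *ᵥ v) j) =
      ((F.redM n M) *ᵥ (fun l => Ideal.Quotient.mk (F.c n) (v l))) j :=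
  RingHom.map_mulVec (Ideal.Quotient.mk (F.c n)) M v j

/-- **The two-module patching theorem (matrix form).**

`S` (think `𝒪⟦y₁,…,y_s⟧`) and `S'` (think `S ⧸ λ`) are complete for filtrations `F`, `F'` with
finite quotients, compatible under `φ : S → S'`; `R` (think `R_∞ = A⟦x₁,…,x_g⟧`) is complete for
a filtration `G` with finite quotients.  For every `m` we are given a valid level-`m` datum
`D m`: two actions `ρ₁, ρ₂` of `R` on `(S ⧸ c m) ^ ι`, killed by `J₁` resp. `J₂`, intertwined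
modulo `φ` by an invertible `U`, each generated by `h` vectors over `R`; and the actions are
uniformly continuous (`hcont`).  Then there are limit objects over `S` with the same properties,
and every finite truncation of the limit is the truncation of some `D m`. -/
theorem exists_patched [∀ n, Finite (S ⧸ F.c n)] [∀ n, Finite (S' ⧸ F'.c n)]
    [∀ k, Finite (R ⧸ G.c k)] (J₁ J₂ : Ideal R)
    (D : ∀ m, Lvl R F F' ι h m)
    (hD : ∀ m, (D m).IsValid (phiLvl F F' φ hφ m) J₁ J₂)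
    (hcont : ∀ n, ∃ k, ∀ m (hnm : n ≤ m), ∀ r ∈ G.c k,
      (truncLE F F' hnm (D m)).ρ₁ r = 0 ∧ (truncLE F F' hnm (D m)).ρ₂ r = 0) :
    ∃ (ρ₁ ρ₂ : R →+* Matrix ι ι S) (U V : Matrix ι ι S') (v₁ v₂ : Matrix (Fin h) ι S),
      U * V = 1 ∧ V * U = 1 ∧
      (∀ r, U * (ρ₁ r).map φ = (ρ₂ r).map φ * U) ∧
      (∀ r ∈ J₁, ρ₁ r = 0) ∧ (∀ r ∈ J₂, ρ₂ r = 0) ∧
      (∀ w : ι → S, ∃ r : Fin h → R, w = ∑ i, ρ₁ (r i) *ᵥ v₁ i) ∧
      (∀ w : ι → S, ∃ r : Fin h → R, w = ∑ i, ρ₂ (r i) *ᵥ v₂ i) ∧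
      ∀ n, ∃ m, ∃ hnm : n ≤ m,
        (∀ r, F.redM n (ρ₁ r) = (truncLE F F' hnm (D m)).ρ₁ r) ∧
        (∀ r, F.redM n (ρ₂ r) = (truncLE F F' hnm (D m)).ρ₂ r) ∧
        F'.redM n U = (truncLE F F' hnm (D m)).U ∧
        F'.redM n V = (truncLE F F' hnm (D m)).V ∧
        F.redM n v₁ = (truncLE F F' hnm (D m)).v₁ ∧
        F.redM n v₂ = (truncLE F F' hnm (D m)).v₂ := by
  classical
  -- the truncation table
  let t : ∀ n, ℕ → Lvl R F F' ι h n := fun n m =>
    if hnm : n ≤ m then truncLE F F' hnm (D m) else D n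
  have ht : ∀ n m (hnm : n ≤ m), t n m = truncLE F F' hnm (D m) := fun n m hnm => dif_pos hnm
  have hfin : ∀ n, (Set.range (t n)).Finite := by
    intro n
    obtain ⟨k, hk⟩ := hcont n
    refine (Datum.finite_setOf_kill (A := S ⧸ F.c n) (A' := S' ⧸ F'.c n) (ι := ι) (h := h)
      (G.c k)).subset ?_
    rintro _ ⟨m, rfl⟩
    by_cases hnm : n ≤ m
    · rw [ht n m hnm]
      exact hk m hnm
    · have : t n m = D n := dif_neg hnm
      rw [this, ← truncLE_self F F' (D n)]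
      exact hk n le_rfl
  obtain ⟨m, -, hm, hthr⟩ := exists_thread t hfin
  -- the compatible system
  let z : ∀ n, Lvl R F F' ι h n := fun n => truncLE F F' (hm n) (D (m n))
  have hzk : ∀ n k (hnk : n ≤ k), truncLE F F' hnk (z k) = z n := by
    intro n k hnk
    change truncLE F F' hnk (truncLE F F' (hm k) (D (m k))) = _
    rw [truncLE_truncLE, ← ht n (m k) (hnk.trans (hm k)), hthr n k hnk, ht n (m n) (hm n)]
  have hz : ∀ n, truncLE F F' (Nat.le_succ n) (z (n + 1)) = z n := fun n => hzk n (n + 1) _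
  have hzv : ∀ n, (z n).IsValid (phiLvl F F' φ hφ n) J₁ J₂ := fun n =>
    isValid_truncLE F F' φ hφ (hm n) (hD (m n))
  -- compatibilities of the components
  have c1 : ∀ n r, F.transM n ((z (n + 1)).ρ₁ r) = (z n).ρ₁ r := fun n r => by
    rw [← hz n]; rfl
  have c2 : ∀ n r, F.transM n ((z (n + 1)).ρ₂ r) = (z n).ρ₂ r := fun n r => by
    rw [← hz n]; rfl
  have c3 : ∀ n, F'.transM n (z (n + 1)).U = (z n).U := fun n => by
    rw [← hz n]; rfl
  have c4 : ∀ n, F'.transM n (z (n + 1)).V = (z n).V := fun n => by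
    rw [← hz n]; rfl
  have c5 : ∀ n, F.transM n (z (n + 1)).v₁ = (z n).v₁ := fun n => by
    rw [← hz n]; rfl
  have c6 : ∀ n, F.transM n (z (n + 1)).v₂ = (z n).v₂ := fun n => by
    rw [← hz n]; rfl
  -- the limit objects
  set ρ₁ := F.limHom (fun n => (z n).ρ₁) c1 with hρ₁
  set ρ₂ := F.limHom (fun n => (z n).ρ₂) c2 with hρ₂
  set U := F'.limM (fun n => (z n).U) c3 with hU
  set V := F'.limM (fun n => (z n).V) c4 with hV
  set v₁ := F.limM (fun n => (z n).v₁) c5 with hv₁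
  set v₂ := F.limM (fun n => (z n).v₂) c6 with hv₂
  have r1 : ∀ n r, F.redM n (ρ₁ r) = (z n).ρ₁ r := fun n r => F.redM_limHom _ c1 n r
  have r2 : ∀ n r, F.redM n (ρ₂ r) = (z n).ρ₂ r := fun n r => F.redM_limHom _ c2 n r
  have r3 : ∀ n, F'.redM n U = (z n).U := fun n => F'.redM_limM _ c3 n
  have r4 : ∀ n, F'.redM n V = (z n).V := fun n => F'.redM_limM _ c4 n
  have r5 : ∀ n, F.redM n v₁ = (z n).v₁ := fun n => F.redM_limM _ c5 n
  have r6 : ∀ n, F.redM n v₂ = (z n).v₂ := fun n => F.redM_limM _ c6 n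
  -- reduction commutes with `φ`
  have hredφ : ∀ n (M : Matrix ι ι S), F'.redM n (M.map φ) = (F.redM n M).map (phiLvl F F' φ hφ n) := by
    intro n M
    ext i j
    simp [Filt.redM]
  -- continuity of the limit actions
  have hcont₁ : ∀ n, ∃ k, ∀ r ∈ G.c k, F.redM n (ρ₁ r) = 0 := by
    intro n
    obtain ⟨k, hk⟩ := hcont n
    exact ⟨k, fun r hr => by rw [r1]; exact (hk (m n) (hm n) r hr).1⟩
  have hcont₂ : ∀ n, ∃ k, ∀ r ∈ G.c k, F.redM n (ρ₂ r) = 0 := by
    intro n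
    obtain ⟨k, hk⟩ := hcont n
    exact ⟨k, fun r hr => by rw [r2]; exact (hk (m n) (hm n) r hr).2⟩
  -- generation modulo every level
  have hgen₁ : ∀ n (w : ι → S), ∃ r : Fin h → R,
      ∀ j, w j - (∑ i, ρ₁ (r i) *ᵥ v₁ i) j ∈ F.c n := by
    intro n w
    obtain ⟨r, hr⟩ := (hzv n).gen₁ (fun l => Ideal.Quotient.mk (F.c n) (w l))
    refine ⟨r, fun j => ?_⟩
    rw [← Ideal.Quotient.eq, Finset.sum_apply, map_sum]
    have := congrFun hr j
    rw [this, Finset.sum_apply]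
    refine Finset.sum_congr rfl fun i _ => ?_
    rw [F.mk_mulVec, r1]
    have : (fun l => Ideal.Quotient.mk (F.c n) (v₁ i l)) = (z n).v₁ i := by
      rw [← r5 n]; rfl
    rw [this]
  have hgen₂ : ∀ n (w : ι → S), ∃ r : Fin h → R,
      ∀ j, w j - (∑ i, ρ₂ (r i) *ᵥ v₂ i) j ∈ F.c n := by
    intro n w
    obtain ⟨r, hr⟩ := (hzv n).gen₂ (fun l => Ideal.Quotient.mk (F.c n) (w l))
    refine ⟨r, fun j => ?_⟩
    rw [← Ideal.Quotient.eq, Finset.sum_apply, map_sum]
    have := congrFun hr j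
    rw [this, Finset.sum_apply]
    refine Finset.sum_congr rfl fun i _ => ?_
    rw [F.mk_mulVec, r2]
    have : (fun l => Ideal.Quotient.mk (F.c n) (v₂ i l)) = (z n).v₂ i := by
      rw [← r6 n]; rfl
    rw [this]
  refine ⟨ρ₁, ρ₂, U, V, v₁, v₂, ?_, ?_, ?_, ?_, ?_, ?_, ?_, ?_⟩
  · refine F'.eq_of_forall_redM_eq fun n => ?_
    rw [F'.redM_mul, r3, r4, (hzv n).UV, F'.redM_one]
  · refine F'.eq_of_forall_redM_eq fun n => ?_
    rw [F'.redM_mul, r3, r4, (hzv n).VU, F'.redM_one]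
  · intro r
    refine F'.eq_of_forall_redM_eq fun n => ?_
    rw [F'.redM_mul, F'.redM_mul, hredφ, hredφ, r1, r2, r3]
    exact (hzv n).conj r
  · intro r hr
    refine F.eq_of_forall_redM_eq fun n => ?_
    rw [r1, (hzv n).kill₁ r hr, F.redM_zero]
  · intro r hr
    refine F.eq_of_forall_redM_eq fun n => ?_
    rw [r2, (hzv n).kill₂ r hr, F.redM_zero]
  · exact gen_of_gen_mod F G ρ₁ v₁ hcont₁ hgen₁
  · exact gen_of_gen_mod F G ρ₂ v₂ hcont₂ hgen₂
  · intro n
    exact ⟨m n, hm n, r1 n, r2 n, r3 n, r4 n, r5 n, r6 n⟩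

end Fermat.Agent.GB.PatchSupp
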