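-- CELL-B / GB-PATCH-SUPP (helper9): automatic continuity.  A ring homomorphism from a local ring
-- `R` to a finite ring `B` kills `𝔪 ^ (card B)`; hence the continuity hypothesis `hcont` of
-- `exists_patched` is automatic when `G.c k = 𝔪 ^ k`.  Mathlib only.
import Fermat.Agent.GB.PatchSupp.Patch

set_option autoImplicit false
set_option linter.unusedSectionVars false

namespace Fermat.Agent.GB.PatchSupp

open IsLocalRing

/-- A ring homomorphism from a local ring to a finite ring `B` (not necessarily commutative)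
kills the `card B`-th power of the maximal ideal. -/
theorem map_pow_card_eq_zero {R B : Type*} [CommRing R] [IsLocalRing R] [Ring B] [Finite B]
    (ρ : R →+* B) {r : R} (hr : r ∈ maximalIdeal R ^ Nat.card B) : ρ r = 0 := by
  classical
  let _ : Module R B := Module.compHom B ρ
  have hsmul : ∀ (a : R) (b : B), a • b = ρ a * b := fun _ _ => rfl
  let f : R →ₗ[R] B :=
    { toFun := ρ
      map_add' := map_add ρ
      map_smul' := fun a x => by simp [hsmul] }
  have hf : ∀ x, f x = ρ x := fun _ => rfl
  let N : ℕ → Submodule R B := fun j => Submodule.map f (maximalIdeal R ^ j)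
  have hstep : ∀ j, N (j + 1) = maximalIdeal R • N j := by
    intro j
    simp only [N]
    rw [pow_succ', ← smul_eq_mul, Submodule.map_smul'']
  have hanti : ∀ j, N (j + 1) ≤ N j := fun j => by
    rw [hstep]; exact Submodule.smul_le_right
  have hbot : ∀ j, N (j + 1) = N j → N j = ⊥ := by
    intro j hj
    refine Submodule.eq_bot_of_le_smul_of_le_jacobson_bot (maximalIdeal R) (N j) ?_ ?_
      (IsLocalRing.maximalIdeal_le_jacobson ⊥)
    · exact Submodule.fg_def.mpr ⟨(N j : Set B), Set.toFinite _, Submodule.span_eq _⟩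
    · rw [← hstep, hj]
  -- counting
  have hex : ∃ j, j < Nat.card B ∧ N (j + 1) = N j := by
    by_contra hcon
    push Not at hcon
    have hlt : ∀ j, j < Nat.card B → ((N (j + 1) : Set B)).ncard + 1 ≤ ((N j : Set B)).ncard := by
      intro j hj
      have hss : (N (j + 1) : Set B) ⊂ (N j : Set B) := by
        refine ⟨hanti j, fun hle => hcon j hj ?_⟩
        exact le_antisymm (hanti j) hle
      exact Set.ncard_lt_ncard hss (Set.toFinite _)
    have hind : ∀ j, j ≤ Nat.card B → ((N j : Set B)).ncard + j ≤ ((N 0 : Set B)).ncard := by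
      intro j
      induction j with
      | zero => intro _; simp
      | succ j ih =>
        intro hj
        have := ih (Nat.le_of_succ_le hj)
        have := hlt j hj
        omega
    have h1 := hind (Nat.card B) le_rfl
    have h2 : ((N 0 : Set B)).ncard ≤ Nat.card B := by
      rw [← Set.ncard_univ]
      exact Set.ncard_le_ncard (Set.subset_univ _) (Set.toFinite _)
    have h3 : 0 < ((N (Nat.card B) : Set B)).ncard :=
      (Set.ncard_pos (Set.toFinite _)).mpr ⟨0, (N (Nat.card B)).zero_mem⟩
    omega
  obtain ⟨j, hj, hjeq⟩ := hex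
  have hNj := hbot j hjeq
  have hmem : f r ∈ N j := Submodule.mem_map_of_mem (Ideal.pow_le_pow_right hj.le hr)
  rw [hNj, Submodule.mem_bot, hf] at hmem
  exact hmem

variable {R S S' : Type*} [CommRing R] [IsLocalRing R] [CommRing S] [CommRing S']
  (F : Filt S) (F' : Filt S')
  {ι : Type*} [Fintype ι] [DecidableEq ι] {h : ℕ}

/-- **Automatic continuity**: if `G.c k = 𝔪_R ^ k` then the hypothesis `hcont` of
`exists_patched` holds for every family of data. -/
theorem hcont_of_local [∀ n, Finite (S ⧸ F.c n)] (G : Filt R)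
    (hG : ∀ k, G.c k = maximalIdeal R ^ k) (D : ∀ m, Lvl R F F' ι h m) :
    ∀ n, ∃ k, ∀ m (hnm : n ≤ m), ∀ r ∈ G.c k,
      (truncLE F F' hnm (D m)).ρ₁ r = 0 ∧ (truncLE F F' hnm (D m)).ρ₂ r = 0 := by
  intro n
  refine ⟨Nat.card (Matrix ι ι (S ⧸ F.c n)), fun m hnm r hr => ?_⟩
  rw [hG] at hr
  exact ⟨map_pow_card_eq_zero _ hr, map_pow_card_eq_zero _ hr⟩

end Fermat.Agent.GB.PatchSupp
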