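-- CELL-B / GB-PATCH-SUPP (helper9): the coefficientwise filtration on `MvPowerSeries σ A`
-- induced by a complete separated filtration of `A`; finite quotients for finite `σ`.
-- Mathlib only.
import Fermat.Agent.GB.PatchSupp.Limit

set_option autoImplicit false
set_option linter.unusedSectionVars false

namespace Fermat.Agent.GB.PatchSupp

namespace Filt

open MvPowerSeries

variable {A : Type*} [CommRing A] (FA : Filt A) (σ : Type*)

/-- The ideal of power series whose coefficients of degree `< n` lie in `FA.c n`. -/
noncomputable def psIdeal (n : ℕ) : Ideal (MvPowerSeries σ A) where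
  carrier := {f | ∀ d : σ →₀ ℕ, d.degree < n → coeff d f ∈ FA.c n}
  zero_mem' := fun d _ => by simp
  add_mem' := fun {f g} hf hg d hd => by
    rw [map_add]
    exact (FA.c n).add_mem (hf d hd) (hg d hd)
  smul_mem' := fun g f hf d hd => by
    classical
    rw [smul_eq_mul, coeff_mul]
    refine Ideal.sum_mem _ fun p hp => ?_
    have hp' : p.1 + p.2 = d := by simpa using hp
    have hdeg : p.2.degree ≤ d.degree := by
      rw [← hp', map_add]
      exact Nat.le_add_left _ _
    exact Ideal.mul_mem_left _ _ (hf p.2 (lt_of_le_of_lt hdeg hd))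

theorem mem_psIdeal {n : ℕ} {f : MvPowerSeries σ A} :
    f ∈ FA.psIdeal σ n ↔ ∀ d : σ →₀ ℕ, d.degree < n → coeff d f ∈ FA.c n := Iff.rfl

/-- **The coefficientwise filtration of a power series ring.** -/
noncomputable def mvPowerSeries : Filt (MvPowerSeries σ A) where
  c := FA.psIdeal σ
  anti := fun n m hnm f hf d hd => FA.anti hnm (hf d (lt_of_lt_of_le hd hnm))
  complete := by
    classical
    intro f hf
    -- extended Cauchy property, coefficientwise
    have hle : ∀ (d : σ →₀ ℕ) {n k : ℕ}, d.degree < n → n ≤ k →
        coeff d (f k) - coeff d (f n) ∈ FA.c n := by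
      intro d n k hd hnk
      induction hnk with
      | refl => simp
      | step hk ih =>
        rename_i k
        have h1 : coeff d (f (k + 1)) - coeff d (f k) ∈ FA.c n := by
          rw [← map_sub]
          exact FA.anti hk (hf k d (lt_of_lt_of_le hd hk))
        have : coeff d (f (k + 1)) - coeff d (f n) =
            (coeff d (f (k + 1)) - coeff d (f k)) + (coeff d (f k) - coeff d (f n)) := by ring
        rw [this]
        exact (FA.c n).add_mem h1 ih
    -- the shifted coefficient sequences are Cauchy in `A`
    have hc : ∀ d : σ →₀ ℕ, ∀ k,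
        coeff d (f (k + 1 + d.degree + 1)) - coeff d (f (k + d.degree + 1)) ∈ FA.c k := by
      intro d k
      have h1 : coeff d (f (k + d.degree + 1 + 1)) - coeff d (f (k + d.degree + 1)) ∈
          FA.c (k + d.degree + 1) := hle d (by omega) (Nat.le_succ _)
      have h2 : k + 1 + d.degree + 1 = k + d.degree + 1 + 1 := by omega
      rw [h2]
      exact FA.anti (by omega) h1
    choose s hs using fun d : σ →₀ ℕ =>
      FA.complete (fun k => coeff d (f (k + d.degree + 1))) (hc d)
    let s0 : MvPowerSeries σ A := fun d => s d
    have hs0 : ∀ d, coeff d s0 = s d := fun d => rfl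
    refine ⟨s0, fun n d hd => ?_⟩
    rw [map_sub, hs0]
    have h1 : s d - coeff d (f (n + d.degree + 1)) ∈ FA.c n := hs d n
    have h2 : coeff d (f (n + d.degree + 1)) - coeff d (f n) ∈ FA.c n := hle d hd (by omega)
    have : s d - coeff d (f n) =
        (s d - coeff d (f (n + d.degree + 1))) + (coeff d (f (n + d.degree + 1)) - coeff d (f n)) := by
      ring
    rw [this]
    exact (FA.c n).add_mem h1 h2
  separated := by
    intro f hf
    ext d
    rw [map_zero]
    refine FA.separated _ fun n => ?_
    exact FA.anti (Nat.le_add_right n (d.degree + 1)) (hf (n + (d.degree + 1)) d (by omega))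

@[simp] theorem mvPowerSeries_c (n : ℕ) : (FA.mvPowerSeries σ).c n = FA.psIdeal σ n := rfl

/-- Finite quotients of the coefficientwise filtration, for finitely many variables. -/
theorem finite_quotient_mvPowerSeries [Finite σ] [∀ n, Finite (A ⧸ FA.c n)] (n : ℕ) :
    Finite (MvPowerSeries σ A ⧸ (FA.mvPowerSeries σ).c n) := by
  classical
  have : Finite {d : σ →₀ ℕ // d.degree < n} := (Finsupp.finite_of_degree_lt n).to_subtype
  -- the truncation map
  let T : MvPowerSeries σ A →+ ({d : σ →₀ ℕ // d.degree < n} → A ⧸ FA.c n) :=
    { toFun := fun f d => Ideal.Quotient.mk (FA.c n) (coeff d.1 f)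
      map_zero' := by funext d; simp
      map_add' := fun f g => by funext d; simp }
  have hker : ∀ f, T f = 0 ↔ f ∈ (FA.mvPowerSeries σ).c n := by
    intro f
    constructor
    · intro hf d hd
      have := congrFun hf ⟨d, hd⟩
      exact Ideal.Quotient.eq_zero_iff_mem.mp this
    · intro hf
      funext d
      exact Ideal.Quotient.eq_zero_iff_mem.mpr (hf d.1 d.2)
  -- the induced injection on the quotient
  let Tq : MvPowerSeries σ A ⧸ (FA.mvPowerSeries σ).c n →
      ({d : σ →₀ ℕ // d.degree < n} → A ⧸ FA.c n) :=
    fun q => Quotient.liftOn' q T (fun a b hab => by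
      have hab' : a - b ∈ (FA.mvPowerSeries σ).c n := by
        have := (Submodule.quotientRel_def _).mp hab
        simpa using this
      have := (hker (a - b)).mpr hab'
      rw [map_sub, sub_eq_zero] at this
      exact this)
  have hinj : Function.Injective Tq := by
    intro q q' h
    obtain ⟨a, rfl⟩ := Ideal.Quotient.mk_surjective q
    obtain ⟨b, rfl⟩ := Ideal.Quotient.mk_surjective q'
    have h' : T a = T b := h
    rw [Ideal.Quotient.eq]
    apply (hker (a - b)).mp
    rw [map_sub, h', sub_self]
  exact Finite.of_injective Tq hinj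

end Filt

end Fermat.Agent.GB.PatchSupp
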