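-- CELL-B / GB-PATCH-SUPP (helper9): over a local ring `A`, the coefficientwise filtration of
-- `MvPowerSeries σ A` (finite `σ`) is finer than the `𝔪`-adic one; continuity for cofinal
-- filtrations.  Mathlib only.
import Fermat.Agent.GB.PatchSupp.PS
import Fermat.Agent.GB.PatchSupp.Cont

set_option autoImplicit false
set_option linter.unusedSectionVars false

namespace Fermat.Agent.GB.PatchSupp

open MvPowerSeries IsLocalRing

section Tail

variable {A : Type*} [CommRing A] {σ : Type*} [Fintype σ]

/-- A power series in finitely many variables all of whose coefficients of degree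
`≤ card σ * N` vanish lies in the ideal generated by the `X s ^ N`. -/
theorem mem_span_X_pow_of_coeff_eq_zero (N : ℕ) (t : MvPowerSeries σ A)
    (ht : ∀ d : σ →₀ ℕ, d.degree ≤ Fintype.card σ * N → coeff d t = 0) :
    t ∈ Ideal.span (Set.range fun s : σ => (X s : MvPowerSeries σ A) ^ N) := by
  classical
  -- a choice of a variable with large exponent
  let sel : (σ →₀ ℕ) → Option σ := fun d =>
    if h : ∃ s, N ≤ d s then some (Classical.choose h) else none
  have hsel : ∀ d s, sel d = some s → N ≤ d s := by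
    intro d s hs
    simp only [sel] at hs
    split_ifs at hs with h
    · have := Classical.choose_spec h
      simp only [Option.some.injEq] at hs
      rw [← hs]; exact this
  have hnone : ∀ d, sel d = none → ∀ s, d s < N := by
    intro d hd s
    simp only [sel] at hd
    split_ifs at hd with h
    · exact not_le.mp fun hs => h ⟨s, hs⟩
  let ts : σ → MvPowerSeries σ A := fun s d => if sel d = some s then coeff d t else 0
  have hts : ∀ s d, coeff d (ts s) = if sel d = some s then coeff d t else 0 := fun s d => rfl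
  have hdvd : ∀ s, (X s : MvPowerSeries σ A) ^ N ∣ ts s := by
    intro s
    rw [X_pow_dvd_iff]
    intro m hm
    rw [hts, if_neg]
    intro h
    exact absurd (hsel m s h) (not_le.mpr hm)
  have hsum : t = ∑ s, ts s := by
    ext d
    rw [map_sum]
    simp only [hts]
    cases hd : sel d with
    | none =>
      have h1 : d.degree ≤ Fintype.card σ * N := by
        rw [Finsupp.degree_eq_sum]
        calc ∑ i, d i ≤ ∑ _i : σ, N := Finset.sum_le_sum fun i _ => (hnone d hd i).le
          _ = Fintype.card σ * N := by simp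
      rw [ht d h1]
      simp
    | some s₀ =>
      simp only [Option.some.injEq]
      rw [Finset.sum_ite_eq Finset.univ s₀ (fun _ => coeff d t)]
      simp
  rw [hsum]
  refine Ideal.sum_mem _ fun s _ => ?_
  obtain ⟨q, hq⟩ := hdvd s
  rw [hq]
  exact Ideal.mul_mem_right _ _ (Ideal.subset_span ⟨s, rfl⟩)

end Tail

section Local

variable {A : Type*} [CommRing A] [IsLocalRing A] {σ : Type*} [Fintype σ]

theorem C_mem_maximalIdeal {a : A} (ha : a ∈ maximalIdeal A) :
    (C a : MvPowerSeries σ A) ∈ maximalIdeal (MvPowerSeries σ A) := by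
  rw [mem_maximalIdeal, mem_nonunits_iff, isUnit_iff_constantCoeff, constantCoeff_C]
  exact (mem_maximalIdeal a).mp ha

theorem X_mem_maximalIdeal (s : σ) :
    (X s : MvPowerSeries σ A) ∈ maximalIdeal (MvPowerSeries σ A) := by
  rw [mem_maximalIdeal, mem_nonunits_iff, isUnit_iff_constantCoeff, constantCoeff_X]
  exact not_isUnit_zero

theorem monomial_mem_maximalIdeal_pow {N : ℕ} {a : A} (ha : a ∈ maximalIdeal A ^ N)
    (d : σ →₀ ℕ) : monomial d a ∈ maximalIdeal (MvPowerSeries σ A) ^ N := by
  have h1 : monomial d a = C a * monomial d (1 : A) := by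
    rw [← monomial_zero_eq_C_apply, monomial_mul_monomial, zero_add, mul_one]
  rw [h1]
  refine Ideal.mul_mem_right _ _ ?_
  have h2 : Ideal.map (C (σ := σ) (R := A)) (maximalIdeal A) ≤
      maximalIdeal (MvPowerSeries σ A) := by
    rw [Ideal.map_le_iff_le_comap]
    intro x hx
    exact C_mem_maximalIdeal hx
  have h3 : (C a : MvPowerSeries σ A) ∈ Ideal.map C (maximalIdeal A ^ N) :=
    Ideal.mem_map_of_mem _ ha
  rw [Ideal.map_pow] at h3
  exact Ideal.pow_right_mono h2 N h3

/-- **Cofinality**: the coefficientwise filtration of `A⟦σ⟧` is finer than the `𝔪`-adic one. -/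
theorem psIdeal_le_maximalIdeal_pow (FA : Filt A) (N k : ℕ) (hk : FA.c k ≤ maximalIdeal A ^ N) :
    FA.psIdeal σ (max k (Fintype.card σ * N + 1)) ≤ maximalIdeal (MvPowerSeries σ A) ^ N := by
  classical
  intro f hf
  set K := max k (Fintype.card σ * N + 1) with hK
  have hkK : k ≤ K := le_max_left _ _
  have hNK : Fintype.card σ * N + 1 ≤ K := le_max_right _ _
  let Dset : Finset (σ →₀ ℕ) := (Finsupp.finite_of_degree_lt K).toFinset
  have hD : ∀ d, d ∈ Dset ↔ d.degree < K := fun d => by simp [Dset]
  let P : MvPowerSeries σ A := ∑ d ∈ Dset, monomial d (coeff d f)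
  have hP : P ∈ maximalIdeal (MvPowerSeries σ A) ^ N := by
    refine Ideal.sum_mem _ fun d hd => ?_
    refine monomial_mem_maximalIdeal_pow (hk (FA.anti hkK ?_)) d
    exact hf d ((hD d).mp hd)
  have hcoeffP : ∀ e, e.degree < K → coeff e P = coeff e f := by
    intro e he
    simp only [P, map_sum, coeff_monomial]
    rw [Finset.sum_eq_single e]
    · simp
    · intro d _ hde
      rw [if_neg (Ne.symm hde)]
    · intro he'
      exact absurd ((hD e).mpr he) he'
  have ht : f - P ∈ maximalIdeal (MvPowerSeries σ A) ^ N := by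
    have h1 : f - P ∈ Ideal.span (Set.range fun s : σ => (X s : MvPowerSeries σ A) ^ N) := by
      refine mem_span_X_pow_of_coeff_eq_zero N _ fun d hd => ?_
      rw [map_sub, hcoeffP d (by omega), sub_self]
    refine (Ideal.span_le.mpr ?_) h1
    rintro _ ⟨s, rfl⟩
    exact Ideal.pow_mem_pow (X_mem_maximalIdeal s) N
  have : f = (f - P) + P := by ring
  rw [this]
  exact Ideal.add_mem _ ht hP

/-- Cofinality of the coefficientwise filtration on `A⟦σ⟧`, given cofinality on `A`. -/
theorem exists_mvPowerSeries_c_le (FA : Filt A)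
    (hFA : ∀ N, ∃ k, FA.c k ≤ maximalIdeal A ^ N) (N : ℕ) :
    ∃ k, (FA.mvPowerSeries σ).c k ≤ maximalIdeal (MvPowerSeries σ A) ^ N := by
  obtain ⟨k, hk⟩ := hFA N
  exact ⟨_, psIdeal_le_maximalIdeal_pow FA N k hk⟩

end Local

section Cont

variable {R S S' : Type*} [CommRing R] [IsLocalRing R] [CommRing S] [CommRing S']
  (F : Filt S) (F' : Filt S')
  {ι : Type*} [Fintype ι] [DecidableEq ι] {h : ℕ}

/-- **Automatic continuity, cofinal form**: if the filtration `G` of the local ring `R` is finer
than the `𝔪`-adic one, the hypothesis `hcont` of `exists_patched` holds for every family of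
data. -/
theorem hcont_of_cofinal [∀ n, Finite (S ⧸ F.c n)] (G : Filt R)
    (hG : ∀ N, ∃ k, G.c k ≤ maximalIdeal R ^ N) (D : ∀ m, Lvl R F F' ι h m) :
    ∀ n, ∃ k, ∀ m (hnm : n ≤ m), ∀ r ∈ G.c k,
      (truncLE F F' hnm (D m)).ρ₁ r = 0 ∧ (truncLE F F' hnm (D m)).ρ₂ r = 0 := by
  intro n
  obtain ⟨k, hk⟩ := hG (Nat.card (Matrix ι ι (S ⧸ F.c n)))
  refine ⟨k, fun m hnm r hr => ?_⟩
  exact ⟨map_pow_card_eq_zero _ (hk hr), map_pow_card_eq_zero _ (hk hr)⟩

end Cont

end Fermat.Agent.GB.PatchSupp
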