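-- CELL-B / GB-PATCH-SUPP (helper9): adapters between modules and the matrix form.
-- Output side: the `R ⊗ S`-module `MatMod ρ = S ^ ι` of a ring homomorphism `ρ : R → M_ι(S)`
-- (finite over `R` if generated, free of rank `card ι` over `S`, commuting actions).
-- Input side: the matrix action of `R` on a module with a chosen basis.  Mathlib only.
import Fermat.Agent.GB.PatchSupp.Patch

set_option autoImplicit false
set_option linter.unusedSectionVars false

namespace Fermat.Agent.GB.PatchSupp

open Matrix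

section Output

variable {R S : Type*} [CommRing R] [CommRing S] {ι : Type*} [Fintype ι] [DecidableEq ι]

/-- The module `S ^ ι` with `R` acting through `ρ : R → M_ι(S)`. -/
@[nolint unusedArguments]
def MatMod (_ρ : R →+* Matrix ι ι S) : Type _ := ι → S

namespace MatMod

variable (ρ : R →+* Matrix ι ι S)

instance : AddCommGroup (MatMod ρ) := inferInstanceAs (AddCommGroup (ι → S))

instance instModuleS : Module S (MatMod ρ) := inferInstanceAs (Module S (ι → S))

/-- The underlying vector. -/
def toFun (w : MatMod ρ) : ι → S := w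

/-- The element of `MatMod ρ` with a given underlying vector. -/
def of (w : ι → S) : MatMod ρ := w

@[simp] theorem toFun_of (w : ι → S) : toFun ρ (of ρ w) = w := rfl

@[simp] theorem of_toFun (w : MatMod ρ) : of ρ (toFun ρ w) = w := rfl

instance instModuleR : Module R (MatMod ρ) where
  smul r w := of ρ (ρ r *ᵥ toFun ρ w)
  one_smul w := by
    change of ρ (ρ 1 *ᵥ toFun ρ w) = w
    rw [map_one, Matrix.one_mulVec]; rfl
  mul_smul r r' w := by
    change of ρ (ρ (r * r') *ᵥ toFun ρ w) = of ρ (ρ r *ᵥ toFun ρ (of ρ (ρ r' *ᵥ toFun ρ w)))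
    rw [map_mul, toFun_of, Matrix.mulVec_mulVec]
  smul_zero r := by
    change of ρ (ρ r *ᵥ (0 : ι → S)) = 0
    rw [Matrix.mulVec_zero]; rfl
  smul_add r w w' := by
    change of ρ (ρ r *ᵥ (toFun ρ w + toFun ρ w')) = _
    rw [Matrix.mulVec_add]; rfl
  add_smul r r' w := by
    change of ρ (ρ (r + r') *ᵥ toFun ρ w) = _
    rw [map_add, Matrix.add_mulVec]; rfl
  zero_smul w := by
    change of ρ (ρ 0 *ᵥ toFun ρ w) = 0
    rw [map_zero, Matrix.zero_mulVec]; rfl

theorem smul_def (r : R) (w : MatMod ρ) : r • w = of ρ (ρ r *ᵥ toFun ρ w) := rfl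

theorem smulS_def (s : S) (w : MatMod ρ) : s • w = of ρ (s • toFun ρ w) := rfl

instance : SMulCommClass R S (MatMod ρ) where
  smul_comm r s w := by
    rw [smul_def, smul_def, smulS_def, smulS_def, toFun_of, toFun_of, Matrix.mulVec_smul]

instance : SMulCommClass S R (MatMod ρ) := SMulCommClass.symm _ _ _

instance : Module.Free S (MatMod ρ) := inferInstanceAs (Module.Free S (ι → S))

instance : Module.Finite S (MatMod ρ) := inferInstanceAs (Module.Finite S (ι → S))

theorem finrank_eq [Nontrivial S] : Module.finrank S (MatMod ρ) = Fintype.card ι :=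
  Module.finrank_pi S

/-- `MatMod ρ` is generated over `R` by the given `h` vectors. -/
theorem finite_of_gen {h : ℕ} (v : Matrix (Fin h) ι S)
    (hgen : ∀ w : ι → S, ∃ r : Fin h → R, w = ∑ i, ρ (r i) *ᵥ v i) :
    Module.Finite R (MatMod ρ) := by
  refine Module.finite_def.mpr (Submodule.fg_iff_exists_fin_generating_family.mpr
    ⟨h, fun i => of ρ (v i), ?_⟩)
  rw [eq_top_iff]
  intro w _
  obtain ⟨r, hr⟩ := hgen (toFun ρ w)
  have hw : w = ∑ i, r i • of ρ (v i) := by
    change toFun ρ w = _
    rw [hr]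
    rfl
  rw [hw]
  exact Submodule.sum_mem _ fun i _ =>
    Submodule.smul_mem _ _ (Submodule.subset_span ⟨i, rfl⟩)

/-- If all entries of `ρ t` lie in the ideal `Λ` then `t • w ∈ Λ • ⊤` for every `w`. -/
theorem smul_mem_smul_top {Λ : Ideal S} {t : R} (ht : ∀ i j, ρ t i j ∈ Λ) (w : MatMod ρ) :
    t • w ∈ (Λ • ⊤ : Submodule S (MatMod ρ)) := by
  classical
  -- `t • w = ∑ i, (ρ t *ᵥ w) i • e_i`
  have hdec : t • w = ∑ i, (ρ t *ᵥ toFun ρ w) i • (of ρ (Pi.single i (1 : S)) : MatMod ρ) := by
    rw [smul_def]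
    have : ∀ u : ι → S, (of ρ u : MatMod ρ) = ∑ i, u i • (of ρ (Pi.single i (1 : S)) : MatMod ρ) := by
      intro u
      change u = ∑ i, u i • (Pi.single i (1 : S) : ι → S)
      funext j
      simp [Finset.sum_apply, Pi.single_apply]
    exact this _
  rw [hdec]
  refine Submodule.sum_mem _ fun i _ => Submodule.smul_mem_smul ?_ Submodule.mem_top
  simp only [Matrix.mulVec, dotProduct]
  exact Ideal.sum_mem _ fun j _ => Ideal.mul_mem_right _ _ (ht i j)

end MatMod

/-- From the output of `exists_patched`: an element killing the first action acts on the second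
module with matrix entries in `ker φ`. -/
theorem entries_mem_ker_of_conj {S' : Type*} [CommRing S'] (φ : S →+* S')
    (ρ₁ ρ₂ : R →+* Matrix ι ι S) (U V : Matrix ι ι S') (hUV : U * V = 1)
    (hconj : ∀ r, U * (ρ₁ r).map φ = (ρ₂ r).map φ * U) {t : R} (ht : ρ₁ t = 0) (i j : ι) :
    ρ₂ t i j ∈ RingHom.ker φ := by
  have h1 : (ρ₂ t).map φ * U = 0 := by
    rw [← hconj t, ht]
    have : (0 : Matrix ι ι S).map φ = 0 := Matrix.map_zero _ (map_zero _)
    rw [this, mul_zero]
  have h2 : (ρ₂ t).map φ = 0 := by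
    have := congrArg (· * V) h1
    simpa [mul_assoc, hUV] using this
  have := congrFun (congrFun h2 i) j
  simpa [RingHom.mem_ker] using this

end Output

section Input

variable {R A M : Type*} [CommRing R] [CommRing A] [AddCommGroup M] [Module R M] [Module A M]
  [SMulCommClass R A M] {ι : Type*} [Fintype ι] [DecidableEq ι]

/-- The matrix action of `R` on an `A`-module `M` with basis `b`, for commuting actions. -/
noncomputable def rhoOfBasis (b : Module.Basis ι A M) : R →+* Matrix ι ι A :=
  (LinearMap.toMatrixAlgEquiv b : Module.End A M →+* Matrix ι ι A).comp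
    (Module.toModuleEnd A (S := R) M)

theorem rhoOfBasis_apply (b : Module.Basis ι A M) (r : R) (i j : ι) :
    rhoOfBasis b r i j = b.repr (r • b j) i := by
  simp [rhoOfBasis, LinearMap.toMatrixAlgEquiv_apply]

theorem rhoOfBasis_mulVec_repr (b : Module.Basis ι A M) (r : R) (m : M) :
    rhoOfBasis b r *ᵥ (b.repr m) = b.repr (r • m) := by
  simp [rhoOfBasis, LinearMap.toMatrixAlgEquiv, LinearMap.toMatrix]

theorem rhoOfBasis_eq_zero (b : Module.Basis ι A M) {r : R} (hr : ∀ m : M, r • m = 0) :
    rhoOfBasis b r = 0 := by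
  ext i j
  rw [rhoOfBasis_apply, hr]
  simp

/-- Generators of `M` over `R` give generators of `A ^ ι` for the matrix action. -/
theorem gen_of_span_eq_top (b : Module.Basis ι A M) {h : ℕ} (g : Fin h → M)
    (hg : Submodule.span R (Set.range g) = ⊤) (w : ι → A) :
    ∃ r : Fin h → R, w = ∑ i, rhoOfBasis b (r i) *ᵥ (fun l => b.repr (g i) l) := by
  have hm : b.repr.symm (Finsupp.equivFunOnFinite.symm w) ∈ Submodule.span R (Set.range g) := by
    rw [hg]; trivial
  obtain ⟨r, hr⟩ := (Submodule.mem_span_range_iff_exists_fun R).mp hm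
  refine ⟨r, ?_⟩
  have h1 : ∀ i, rhoOfBasis b (r i) *ᵥ (fun l => b.repr (g i) l) = b.repr (r i • g i) :=
    fun i => rhoOfBasis_mulVec_repr b (r i) (g i)
  simp only [h1]
  have h2 : (∑ i, ⇑(b.repr (r i • g i))) = ⇑(b.repr (∑ i, r i • g i)) := by
    rw [map_sum]
    funext l
    simp [Finset.sum_apply]
  rw [h2, hr]
  funext l
  simp

end Input

end Fermat.Agent.GB.PatchSupp
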