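-- CELL-B / GB-PATCH-SUPP (helper9): instances of `Filt`: adic filtrations of adically complete
-- rings (finite quotients for noetherian local rings with finite residue field) and the
-- quotient filtration on `S ⧸ Λ` for a finitely generated ideal `Λ`.  Mathlib only.
import Fermat.Agent.GB.PatchSupp.Thread
import Fermat.Agent.GB.PatchSupp.Limit

set_option autoImplicit false
set_option linter.unusedSectionVars false

namespace Fermat.Agent.GB.PatchSupp

namespace Filt

section Adic

variable {R : Type*} [CommRing R]

/-- The `I`-adic filtration of an `I`-adically complete ring. -/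
noncomputable def ofAdic (I : Ideal R) [IsAdicComplete I R] : Filt R where
  c := fun n => I ^ n
  anti := fun _ _ h => Ideal.pow_le_pow_right h
  complete := by
    intro f hf
    have hf' : ∀ {m n : ℕ}, m ≤ n → f m ≡ f n [SMOD (I ^ m • ⊤ : Submodule R R)] := by
      intro m n hmn
      rw [SModEq.sub_mem, smul_eq_mul, Ideal.mul_top]
      have key : ∀ k, f (m + k) - f m ∈ I ^ m := by
        intro k
        induction k with
        | zero => simp
        | succ k ih =>
          have h1 : f (m + (k + 1)) - f (m + k) ∈ I ^ m :=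
            Ideal.pow_le_pow_right (Nat.le_add_right m k) (hf (m + k))
          have : f (m + (k + 1)) - f m = (f (m + (k + 1)) - f (m + k)) + (f (m + k) - f m) := by
            ring
          rw [this]
          exact (I ^ m).add_mem h1 ih
      obtain ⟨k, rfl⟩ := Nat.exists_eq_add_of_le hmn
      have := key k
      rw [← neg_sub]
      exact (I ^ m).neg_mem this
    obtain ⟨L, hL⟩ := IsPrecomplete.prec (inferInstance : IsPrecomplete I R) hf'
    refine ⟨L, fun n => ?_⟩
    have := hL n
    rw [SModEq.sub_mem, smul_eq_mul, Ideal.mul_top] at this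
    rw [← neg_sub]
    exact (I ^ n).neg_mem this
  separated := by
    intro s hs
    refine IsHausdorff.haus (inferInstance : IsHausdorff I R) s fun n => ?_
    rw [SModEq.sub_mem, smul_eq_mul, Ideal.mul_top, sub_zero]
    exact hs n

@[simp] theorem ofAdic_c (I : Ideal R) [IsAdicComplete I R] (n : ℕ) : (ofAdic I).c n = I ^ n := rfl

/-- Finite quotients of the `𝔪`-adic filtration of a noetherian local ring with finite residue
field. -/
theorem finite_quotient_maximalIdeal_pow [IsLocalRing R] [IsNoetherianRing R]
    [Finite (IsLocalRing.ResidueField R)] (n : ℕ) :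
    Finite (R ⧸ IsLocalRing.maximalIdeal R ^ n) := by
  have : Finite (R ⧸ IsLocalRing.maximalIdeal R) := ‹Finite (IsLocalRing.ResidueField R)›
  exact Ideal.finite_quotient_pow (IsNoetherian.noetherian _) n

end Adic

section Quot

variable {S : Type*} [CommRing S] (F : Filt S)

/-- **The quotient filtration** on `S ⧸ Λ`, for `Λ` finitely generated and `F` with finite
quotients (compactness is used for separatedness: `Λ` is closed). -/
noncomputable def quot [∀ n, Finite (S ⧸ F.c n)] (Λ : Ideal S) (hΛ : Λ.FG) : Filt (S ⧸ Λ) where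
  c := fun n => (F.c n).map (Ideal.Quotient.mk Λ)
  anti := fun _ _ h => Ideal.map_mono (F.anti h)
  complete := by
    classical
    intro f hf
    have hsurj : Function.Surjective (Ideal.Quotient.mk Λ) := Ideal.Quotient.mk_surjective
    -- lifts of the successive differences
    have hlift : ∀ n, ∃ a ∈ F.c n, Ideal.Quotient.mk Λ a = f (n + 1) - f n := fun n =>
      (Ideal.mem_map_iff_of_surjective _ hsurj).mp (hf n)
    choose a ha hae using hlift
    obtain ⟨g0, hg0⟩ := hsurj (f 0)
    let g : ℕ → S := fun n => Nat.rec (motive := fun _ => S) g0 (fun n prev => prev + a n) n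
    have hgS : ∀ n, g (n + 1) = g n + a n := fun _ => rfl
    have hgf : ∀ n, Ideal.Quotient.mk Λ (g n) = f n := by
      intro n
      induction n with
      | zero => exact hg0
      | succ n ih => rw [hgS, map_add, ih, hae]; ring
    have hgc : ∀ n, g (n + 1) - g n ∈ F.c n := fun n => by
      rw [hgS]; simpa using ha n
    obtain ⟨s, hs⟩ := F.complete g hgc
    refine ⟨Ideal.Quotient.mk Λ s, fun n => ?_⟩
    rw [← hgf n, ← map_sub]
    exact Ideal.mem_map_of_mem _ (hs n)
  separated := by
    classical
    intro x hx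
    obtain ⟨x, rfl⟩ := Ideal.Quotient.mk_surjective x
    rw [Ideal.Quotient.eq_zero_iff_mem]
    obtain ⟨gens, rfl⟩ := hΛ
    -- for every `n`: `x = a_n + ∑ u_n g • g` with `a_n ∈ c n`
    have hdec : ∀ n, ∃ u : S → S, x - ∑ g ∈ gens, u g * g ∈ F.c n := by
      intro n
      obtain ⟨a, ha, hax⟩ := (Ideal.mem_map_iff_of_surjective _
        Ideal.Quotient.mk_surjective).mp (hx n)
      have hmem : x - a ∈ Ideal.span (gens : Set S) := by
        rw [← Ideal.Quotient.eq_zero_iff_mem, map_sub, hax, sub_self]
      obtain ⟨u, -, hu⟩ := Submodule.mem_span_finset.mp hmem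
      refine ⟨u, ?_⟩
      have : x - ∑ g ∈ gens, u g * g = a := by
        have : ∑ g ∈ gens, u g * g = x - a := by simpa [smul_eq_mul] using hu
        rw [this]; ring
      rw [this]; exact ha
    choose u hu using hdec
    -- thread of the coefficient vectors
    obtain ⟨m, -, hm, hthr⟩ := exists_thread (T := fun j => gens → S ⧸ F.c j)
      (fun j n g => Ideal.Quotient.mk (F.c j) (u n g)) (fun j => Set.toFinite _)
    have hcauchy : ∀ (g : gens) j, u (m (j + 1)) g - u (m j) g ∈ F.c j := by
      intro g j
      rw [← Ideal.Quotient.eq]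
      exact congrFun (hthr j (j + 1) (Nat.le_succ j)) g
    choose w hw using fun g : gens => F.complete (fun j => u (m j) g) (hcauchy g)
    -- the limit coefficients represent `x`
    have hx0 : x - ∑ g ∈ gens.attach, w g * g = 0 := by
      refine F.separated _ fun j => ?_
      have h1 : x - ∑ g ∈ gens, u (m j) g * g ∈ F.c j := F.anti (hm j) (hu (m j))
      have h2 : ∑ g ∈ gens.attach, (w g - u (m j) g) * g ∈ F.c j :=
        Ideal.sum_mem _ fun g _ => Ideal.mul_mem_right _ _ (hw g j)
      have h3 : ∑ g ∈ gens, u (m j) g * g = ∑ g ∈ gens.attach, u (m j) g * (g : S) :=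
        (Finset.sum_attach gens (fun g => u (m j) g * g)).symm
      have : x - ∑ g ∈ gens.attach, w g * g =
          (x - ∑ g ∈ gens, u (m j) g * g) - ∑ g ∈ gens.attach, (w g - u (m j) g) * g := by
        rw [h3, sub_sub, ← Finset.sum_add_distrib]
        congr 1
        refine Finset.sum_congr rfl fun g _ => ?_
        ring
      rw [this]
      exact (F.c j).sub_mem h1 h2
    rw [sub_eq_zero] at hx0
    rw [hx0]
    exact Ideal.sum_mem _ fun g _ =>
      Ideal.mul_mem_left _ _ (Ideal.subset_span g.2)

@[simp] theorem quot_c [∀ n, Finite (S ⧸ F.c n)] (Λ : Ideal S) (hΛ : Λ.FG) (n : ℕ) :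
    (F.quot Λ hΛ).c n = (F.c n).map (Ideal.Quotient.mk Λ) := rfl

theorem le_comap_quot [∀ n, Finite (S ⧸ F.c n)] (Λ : Ideal S) (hΛ : Λ.FG) (n : ℕ) :
    F.c n ≤ ((F.quot Λ hΛ).c n).comap (Ideal.Quotient.mk Λ) :=
  Ideal.le_comap_map

theorem finite_quot [∀ n, Finite (S ⧸ F.c n)] (Λ : Ideal S) (hΛ : Λ.FG) (n : ℕ) :
    Finite ((S ⧸ Λ) ⧸ (F.quot Λ hΛ).c n) := by
  have hs : Function.Surjective
      (Ideal.quotientMap ((F.quot Λ hΛ).c n) (Ideal.Quotient.mk Λ) (F.le_comap_quot Λ hΛ n)) :=
    Ideal.quotientMap_surjective Ideal.Quotient.mk_surjective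
  exact Finite.of_surjective _ hs

end Quot

end Filt

end Fermat.Agent.GB.PatchSupp
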