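-- GATE-B / GB-PATCH-SUPP (helper9): the bundle `exists_patched` + FIN′ (helper1's
-- `BimoduleDim.fin'_of_free`): finite-level two-module data with the support hypotheses force
-- rank `0`.  Mathlib + GB/Alg only.
import Fermat.Agent.GB.PatchSupp.Adapter
import Fermat.Agent.GB.PatchSupp.Inst
import Fermat.Agent.GB.Alg.BimoduleDim

set_option autoImplicit false
set_option linter.unusedSectionVars false

namespace Fermat.Agent.GB.PatchSupp

open Matrix

variable {R S : Type*} [CommRing R] [CommRing S]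

/-- The ideal `(λ)` of `S` is finitely generated. -/
theorem fg_span_singleton (lamS : S) : (Ideal.span {lamS} : Ideal S).FG :=
  ⟨{lamS}, by simp⟩

/-- The quotient filtration on `S ⧸ (λ_S)`. -/
noncomputable abbrev Filt.quotLam (F : Filt S) [∀ n, Finite (S ⧸ F.c n)] (lamS : S) :
    Filt (S ⧸ Ideal.span {lamS}) :=
  F.quot (Ideal.span {lamS}) (fg_span_singleton lamS)

/-- The level maps `S ⧸ c n → (S ⧸ (λ_S)) ⧸ c̄ n`. -/
noncomputable abbrev Filt.phiLam (F : Filt S) [∀ n, Finite (S ⧸ F.c n)] (lamS : S) (n : ℕ) :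
    S ⧸ F.c n →+* (S ⧸ Ideal.span {lamS}) ⧸ (F.quotLam lamS).c n :=
  phiLvl F (F.quotLam lamS) (Ideal.Quotient.mk (Ideal.span {lamS}))
    (F.le_comap_quot (Ideal.span {lamS}) (fg_span_singleton lamS)) n

/-- **Patching + FIN′ ⟹ rank zero.**

`S` (think `𝒪⟦y⟧`) complete for `F` with finite quotients, `S' = S ⧸ (λ_S)` with the quotient
filtration; `R` (think `R_∞`) complete for `G` with finite quotients.  For every `m` a valid
level-`m` two-module datum `D m` (actions `ρ₁`, `ρ₂` of `R` on `(S ⧸ c m) ^ ι`, intertwined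
modulo `λ_S`, killed by `J₁ ∋ t` resp. `J₂`, boundedly generated over `R`), with `λ_R` acting
through `ρ₂` as the scalar `λ_S`, uniformly continuous.  If `dim R ≤ dim S < ∞` and `t` avoids
`rad (P + (λ_R))` for every full-dimensional minimal prime `P` of `R`, then `ι` is empty, i.e. the
common rank `d` of the modules is `0`. -/
theorem isEmpty_of_patch_fin [Nontrivial S] (lamR : R) (lamS : S)
    (F : Filt S) [∀ n, Finite (S ⧸ F.c n)] (G : Filt R) [∀ k, Finite (R ⧸ G.c k)]
    {ι : Type*} [Fintype ι] [DecidableEq ι] {h : ℕ} (J₁ J₂ : Ideal R) {t : R} (ht : t ∈ J₁)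
    (D : ∀ m, Lvl R F (F.quotLam lamS) ι h m)
    (hD : ∀ m, (D m).IsValid (F.phiLam lamS m) J₁ J₂)
    (hlam : ∀ m, (D m).ρ₂ lamR = Matrix.diagonal fun _ => Ideal.Quotient.mk (F.c m) lamS)
    (hcont : ∀ n, ∃ k, ∀ m (hnm : n ≤ m), ∀ r ∈ G.c k,
      (truncLE F (F.quotLam lamS) hnm (D m)).ρ₁ r = 0 ∧
      (truncLE F (F.quotLam lamS) hnm (D m)).ρ₂ r = 0)
    (hdim : ringKrullDim R ≤ ringKrullDim S) (hfin : ringKrullDim S ≠ ⊤)
    (hP : ∀ P ∈ minimalPrimes R, ringKrullDim (R ⧸ P) = ringKrullDim S →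
      t ∉ (P ⊔ Ideal.span {lamR}).radical) :
    IsEmpty ι := by
  classical
  have : ∀ n, Finite ((S ⧸ Ideal.span {lamS}) ⧸ (F.quotLam lamS).c n) := fun n =>
    F.finite_quot (Ideal.span {lamS}) (fg_span_singleton lamS) n
  obtain ⟨ρ₁, ρ₂, U, V, v₁, v₂, hUV, -, hconj, hk1, -, -, hg2, hlink⟩ :=
    exists_patched F (F.quotLam lamS) G (Ideal.Quotient.mk (Ideal.span {lamS}))
      (F.le_comap_quot (Ideal.span {lamS}) (fg_span_singleton lamS)) J₁ J₂ D hD hcont
  -- `λ_R` acts through `ρ₂` as the scalar `λ_S`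
  have hρlam : ρ₂ lamR = Matrix.diagonal fun _ => lamS := by
    refine F.eq_of_forall_redM_eq fun n => ?_
    obtain ⟨m, hnm, -, h2, -⟩ := hlink n
    rw [h2 lamR]
    change ((D m).ρ₂ lamR).map (F.transLE hnm) = _
    rw [hlam m]
    ext i j
    by_cases hij : i = j
    · subst hij; simp [Filt.redM]
    · simp [Filt.redM, Matrix.diagonal_apply_ne _ hij]
  -- entries of `ρ₂ t` are multiples of `λ_S`
  have hent : ∀ i j, ρ₂ t i j ∈ Ideal.span {lamS} := by
    intro i j
    have := entries_mem_ker_of_conj (Ideal.Quotient.mk (Ideal.span {lamS})) ρ₁ ρ₂ U V hUV hconj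
      (hk1 t ht) i j
    rwa [Ideal.mk_ker] at this
  choose Q hQ using fun i j => Ideal.mem_span_singleton'.mp (hent i j)
  -- the patched module
  have : Module.Finite R (MatMod ρ₂) := MatMod.finite_of_gen ρ₂ v₂ hg2
  have htm : ∀ w : MatMod ρ₂, ∃ w' : MatMod ρ₂, t • w = lamR • w' := by
    intro w
    refine ⟨MatMod.of ρ₂ ((Matrix.of Q) *ᵥ MatMod.toFun ρ₂ w), ?_⟩
    rw [MatMod.smul_def, MatMod.smul_def, MatMod.toFun_of, hρlam]
    congr 1
    funext i
    rw [Matrix.mulVec_diagonal]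
    simp only [Matrix.mulVec, dotProduct, Matrix.of_apply]
    rw [Finset.mul_sum]
    refine Finset.sum_congr rfl fun j _ => ?_
    rw [← hQ i j]; ring
  have hsub : Subsingleton (MatMod ρ₂) :=
    Fermat.Agent.GB.Alg.BimoduleDim.fin'_of_free (R := R) (S := S) (M := MatMod ρ₂)
      hdim hfin htm hP
  refine ⟨fun i => ?_⟩
  have h01 : (MatMod.of ρ₂ (Pi.single i (1 : S)) : MatMod ρ₂) = MatMod.of ρ₂ 0 :=
    Subsingleton.elim _ _
  have := congrFun h01 i
  simp [MatMod.of] at this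

end Fermat.Agent.GB.PatchSupp
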