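-- GATE-B / GB-PATCH-SUPP (helper9): `exists_patched` + FIN′ with the dimension/support
-- hypotheses on the QUOTIENT `R ⧸ J₂` (the B9 shape: `R` a plain power series ring, the local
-- relations live in the killing ideal `J₂`).  Mathlib + GB/Alg only.
import Fermat.Agent.GB.PatchSupp.PatchFin

set_option autoImplicit false
set_option linter.unusedSectionVars false

namespace Fermat.Agent.GB.PatchSupp

open Matrix

variable {R S : Type*} [CommRing R] [CommRing S]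

/-- **Limit data + FIN′ on a quotient of `R` ⟹ rank zero.**  `ρ₂` kills `J`; the dimension and
minimal-prime hypotheses are stated for `R ⧸ J`. -/
theorem isEmpty_of_limit_quot [Nontrivial S] (lamR : R) (lamS : S)
    {ι : Type*} [Fintype ι] [DecidableEq ι] {h : ℕ}
    (ρ₁ ρ₂ : R →+* Matrix ι ι S) (U V : Matrix ι ι (S ⧸ Ideal.span {lamS})) (hUV : U * V = 1)
    (hconj : ∀ r, U * (ρ₁ r).map (Ideal.Quotient.mk (Ideal.span {lamS})) =
      (ρ₂ r).map (Ideal.Quotient.mk (Ideal.span {lamS})) * U)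
    {t : R} (ht : ρ₁ t = 0) (hρlam : ρ₂ lamR = Matrix.diagonal fun _ => lamS)
    (v₂ : Matrix (Fin h) ι S) (hg2 : ∀ w : ι → S, ∃ r : Fin h → R, w = ∑ i, ρ₂ (r i) *ᵥ v₂ i)
    (J : Ideal R) (hJ : ∀ r ∈ J, ρ₂ r = 0)
    (hdim : ringKrullDim (R ⧸ J) ≤ ringKrullDim S) (hfin : ringKrullDim S ≠ ⊤)
    (hP : ∀ P ∈ minimalPrimes (R ⧸ J), ringKrullDim ((R ⧸ J) ⧸ P) = ringKrullDim S →
      Ideal.Quotient.mk J t ∉ (P ⊔ Ideal.span {Ideal.Quotient.mk J lamR}).radical) :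
    IsEmpty ι := by
  classical
  -- the action of the quotient ring
  let ρq : R ⧸ J →+* Matrix ι ι S := Ideal.Quotient.lift J ρ₂ hJ
  have hρq : ∀ r, ρq (Ideal.Quotient.mk J r) = ρ₂ r := fun r => Ideal.Quotient.lift_mk J ρ₂ hJ
  have hent : ∀ i j, ρ₂ t i j ∈ Ideal.span {lamS} := by
    intro i j
    have := entries_mem_ker_of_conj (Ideal.Quotient.mk (Ideal.span {lamS})) ρ₁ ρ₂ U V hUV hconj
      ht i j
    rwa [Ideal.mk_ker] at this
  choose Q hQ using fun i j => Ideal.mem_span_singleton'.mp (hent i j)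
  have hgq : ∀ w : ι → S, ∃ r : Fin h → R ⧸ J, w = ∑ i, ρq (r i) *ᵥ v₂ i := by
    intro w
    obtain ⟨r, hr⟩ := hg2 w
    exact ⟨fun i => Ideal.Quotient.mk J (r i), by simp only [hρq]; exact hr⟩
  have : Module.Finite (R ⧸ J) (MatMod ρq) := MatMod.finite_of_gen ρq v₂ hgq
  have htm : ∀ w : MatMod ρq, ∃ w' : MatMod ρq,
      Ideal.Quotient.mk J t • w = Ideal.Quotient.mk J lamR • w' := by
    intro w
    refine ⟨MatMod.of ρq ((Matrix.of Q) *ᵥ MatMod.toFun ρq w), ?_⟩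
    rw [MatMod.smul_def, MatMod.smul_def, MatMod.toFun_of, hρq, hρq, hρlam]
    congr 1
    funext i
    rw [Matrix.mulVec_diagonal]
    simp only [Matrix.mulVec, dotProduct, Matrix.of_apply]
    rw [Finset.mul_sum]
    refine Finset.sum_congr rfl fun j _ => ?_
    rw [← hQ i j]; ring
  have hsub : Subsingleton (MatMod ρq) :=
    Fermat.Agent.GB.Alg.BimoduleDim.fin'_of_free (R := R ⧸ J) (S := S) (M := MatMod ρq)
      hdim hfin htm hP
  refine ⟨fun i => ?_⟩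
  have h01 : (MatMod.of ρq (Pi.single i (1 : S)) : MatMod ρq) = MatMod.of ρq 0 :=
    Subsingleton.elim _ _
  have := congrFun h01 i
  simp [MatMod.of] at this

/-- **Patching + FIN′ on `R ⧸ J₂` ⟹ rank zero** (the B9 shape). -/
theorem isEmpty_of_patch_fin_quot [Nontrivial S] (lamR : R) (lamS : S)
    (F : Filt S) [∀ n, Finite (S ⧸ F.c n)] (G : Filt R) [∀ k, Finite (R ⧸ G.c k)]
    {ι : Type*} [Fintype ι] [DecidableEq ι] {h : ℕ} (J₁ J₂ : Ideal R) {t : R} (ht : t ∈ J₁)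
    (D : ∀ m, Lvl R F (F.quotLam lamS) ι h m)
    (hD : ∀ m, (D m).IsValid (F.phiLam lamS m) J₁ J₂)
    (hlam : ∀ m, (D m).ρ₂ lamR = Matrix.diagonal fun _ => Ideal.Quotient.mk (F.c m) lamS)
    (hcont : ∀ n, ∃ k, ∀ m (hnm : n ≤ m), ∀ r ∈ G.c k,
      (truncLE F (F.quotLam lamS) hnm (D m)).ρ₁ r = 0 ∧
      (truncLE F (F.quotLam lamS) hnm (D m)).ρ₂ r = 0)
    (hdim : ringKrullDim (R ⧸ J₂) ≤ ringKrullDim S) (hfin : ringKrullDim S ≠ ⊤)
    (hP : ∀ P ∈ minimalPrimes (R ⧸ J₂), ringKrullDim ((R ⧸ J₂) ⧸ P) = ringKrullDim S →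
      Ideal.Quotient.mk J₂ t ∉ (P ⊔ Ideal.span {Ideal.Quotient.mk J₂ lamR}).radical) :
    IsEmpty ι := by
  classical
  have : ∀ n, Finite ((S ⧸ Ideal.span {lamS}) ⧸ (F.quotLam lamS).c n) := fun n =>
    F.finite_quot (Ideal.span {lamS}) (fg_span_singleton lamS) n
  obtain ⟨ρ₁, ρ₂, U, V, v₁, v₂, hUV, -, hconj, hk1, hk2, -, hg2, hlink⟩ :=
    exists_patched F (F.quotLam lamS) G (Ideal.Quotient.mk (Ideal.span {lamS}))
      (F.le_comap_quot (Ideal.span {lamS}) (fg_span_singleton lamS)) J₁ J₂ D hD hcont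
  have hρlam : ρ₂ lamR = Matrix.diagonal fun _ => lamS := by
    refine F.eq_of_forall_redM_eq fun n => ?_
    obtain ⟨m, hnm, -, h2, -⟩ := hlink n
    rw [h2 lamR]
    change ((D m).ρ₂ lamR).map (F.transLE hnm) = _
    rw [hlam m]
    ext i j
    by_cases hij : i = j
    · subst hij; simp [Filt.redM]
    · simp [Filt.redM, Matrix.diagonal_apply_ne _ hij]
  exact isEmpty_of_limit_quot lamR lamS ρ₁ ρ₂ U V hUV hconj (hk1 t ht) hρlam v₂ hg2 J₂ hk2
    hdim hfin hP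

end Fermat.Agent.GB.PatchSupp
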