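-- CELL-B / GB-PATCH-SUPP (helper9): the image of a continuous action `ρ : R → M_ι(S)` of a
-- compact ring is closed.  Used to pass '`y_i` acts as an element of `R`' to the limit.
-- Mathlib only.
import Fermat.Agent.GB.PatchSupp.Gen

set_option autoImplicit false
set_option linter.unusedSectionVars false

namespace Fermat.Agent.GB.PatchSupp

open Matrix

variable {R S : Type*} [CommRing R] [CommRing S] {ι : Type*} [Fintype ι] [DecidableEq ι]

/-- **Closed image.**  Let `R` be complete for a filtration `G` with finite quotients and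
`ρ : R → M_ι(S)` a continuous ring homomorphism.  A matrix `X` which is congruent to an element
of the image of `ρ` modulo every `c n` lies in the image of `ρ`. -/
theorem exists_preimage_of_forall_mod (F : Filt S) (G : Filt R) [∀ j, Finite (R ⧸ G.c j)]
    (ρ : R →+* Matrix ι ι S)
    (hcont : ∀ n, ∃ k, ∀ r ∈ G.c k, F.redM n (ρ r) = 0)
    (X : Matrix ι ι S) (hX : ∀ n, ∃ r : R, F.redM n (ρ r) = F.redM n X) :
    ∃ r : R, ρ r = X := by
  classical
  choose r0 hr0 using hX
  obtain ⟨a, -, ha, hthr⟩ := exists_thread (T := fun j => R ⧸ G.c j)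
    (fun j a => Ideal.Quotient.mk (G.c j) (r0 a)) (fun j => Set.toFinite _)
  have hcauchy : ∀ j, r0 (a (j + 1)) - r0 (a j) ∈ G.c j := by
    intro j
    rw [← Ideal.Quotient.eq]
    exact hthr j (j + 1) (Nat.le_succ j)
  obtain ⟨r, hr⟩ := G.complete (fun j => r0 (a j)) hcauchy
  refine ⟨r, F.eq_of_forall_redM_eq fun n => ?_⟩
  obtain ⟨k, hk⟩ := hcont n
  set j := max n k with hj
  have hnj : n ≤ j := le_max_left _ _
  have hkj : k ≤ j := le_max_right _ _
  have h1 : F.redM n (ρ (r0 (a j))) = F.redM n X := by
    have := hr0 (a j)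
    -- reduce from level `a j` to level `n`
    have hle : n ≤ a j := hnj.trans (ha j)
    ext i l
    have h2 := congrFun (congrFun this i) l
    simp only [Filt.redM_apply] at h2 ⊢
    rw [Ideal.Quotient.eq] at h2 ⊢
    exact F.anti hle h2
  have h2 : F.redM n (ρ (r - r0 (a j))) = 0 := hk _ (G.anti hkj (hr j))
  rw [map_sub] at h2
  have h3 : F.redM n (ρ r) = F.redM n (ρ (r0 (a j))) := by
    ext i l
    have := congrFun (congrFun h2 i) l
    simp only [Filt.redM_apply, Matrix.sub_apply, Matrix.zero_apply, map_sub, sub_eq_zero] at this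
    simpa using this
  rw [h3, h1]

end Fermat.Agent.GB.PatchSupp
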